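import Fermat.Agent.S24.ZP.PlaceBasics

/-!
# P-S34 (vi)(A), part 2: the Hauptmodul of `X₀(4)` at a place, from its two `j`-relations

`F / K` a function field, `char K = 0`, `v` a place.  Let `x, j₁, j₂ : F` satisfy
`j₁ x (x - 16)⁴ = (x² + 224 x + 256)³` and `j₂ x² (x - 16)² = (x² - 16 x + 256)³`
(the relations of `x = x₄`, `j₁ = j(q)`, `j₂ = j(q²)`).  Then

* pole of `x`:       `v(j₁) = v(x)`,  `v(j₂) = 2 v(x)`;
* zero of `x`:       `v(j₁) = -v(x)`, `v(j₂) = -2 v(x)`;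
* zero of `x - 16`:  `v(j₁) = -4 v(x - 16)`, `v(j₂) = -2 v(x - 16)`;
* otherwise `v(j₁) ≥ 0`.

Hence at a pole of `j₁`: `v(x) ≠ 0 ↔ v(j₂) = 2 v(j₁)` (`ord_eq_of_ord_ne_zero`,
`ord_eq_of_ord_eq_zero`), and `v(x) = 0` wherever `j₁` is regular (`ord_eq_zero_of_nonneg`).
-/

set_option autoImplicit false

namespace Fermat.Agent.S34x.Cusp

open AlgebraicCurve
open Fermat.Agent.S24.ZP

section Unit

variable {K F : Type*} [Field K] [Field F] [Algebra K F] (v : Place K F)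

theorem ne_zero_of_ord_ne_zero {w : F} (hw : v.ord w ≠ 0) : w ≠ 0 := by
  rintro rfl
  exact hw v.ord_zero

theorem ofNat_mem_place (n : ℕ) [n.AtLeastTwo] : (OfNat.ofNat n : F) ∈ v.toValuationSubring := by
  rw [← map_ofNat (algebraMap K F) n]
  exact v.algebraMap_mem' _

/-- `c + w g` (`c` a nonzero constant, `g` regular) is a unit at a zero of `w`. -/
theorem ord_const_add {c : K} (hc : c ≠ 0) {w g : F} (hw : 0 < v.ord w)
    (hg : g ∈ v.toValuationSubring) :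
    algebraMap K F c + w * g ≠ 0 ∧ v.ord (algebraMap K F c + w * g) = 0 := by
  have hc0 : algebraMap K F c ≠ 0 := by simpa using hc
  have hcord : v.ord (algebraMap K F c) = 0 := ord_algebraMap v c
  rcases eq_or_ne g 0 with rfl | hg0
  · rw [mul_zero, add_zero]
    exact ⟨hc0, hcord⟩
  have hw0 : w ≠ 0 := ne_zero_of_ord_ne_zero v hw.ne'
  have hwg : w * g ≠ 0 := mul_ne_zero hw0 hg0
  have hlt : v.ord (algebraMap K F c) < v.ord (w * g) := by
    rw [hcord, v.ord_mul hw0 hg0]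
    have := (ord_nonneg_iff v hg0).mpr hg
    omega
  have hord := ord_add_eq_of_lt v hwg hlt hc0
  refine ⟨?_, by rw [hord, hcord]⟩
  intro h0
  have h1 : algebraMap K F c = -(w * g) := by linear_combination h0
  rw [h1, ord_neg] at hlt
  exact lt_irrefl _ hlt

/-- `1 + w g` is a unit at a zero of `w`. -/
theorem ord_one_add {w g : F} (hw : 0 < v.ord w) (hg : g ∈ v.toValuationSubring) :
    1 + w * g ≠ 0 ∧ v.ord (1 + w * g) = 0 := by
  have := ord_const_add v (one_ne_zero (α := K)) hw hg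
  rwa [map_one] at this

/-- `n + w g` is a unit at a zero of `w` (`n` a numeral, characteristic zero). -/
theorem ord_ofNat_add [CharZero K] (n : ℕ) [n.AtLeastTwo] {w g : F} (hw : 0 < v.ord w)
    (hg : g ∈ v.toValuationSubring) :
    (OfNat.ofNat n : F) + w * g ≠ 0 ∧ v.ord ((OfNat.ofNat n : F) + w * g) = 0 := by
  have hn : (OfNat.ofNat n : K) ≠ 0 := OfNat.ofNat_ne_zero n
  have := ord_const_add v hn hw hg
  rwa [map_ofNat] at this

end Unit

section JRel

variable {K F : Type*} [Field K] [Field F] [Algebra K F] [CharZero K] (v : Place K F)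
variable {x j₁ j₂ : F}

/-- at a pole of `x`. -/
theorem ord_of_pole (hx0 : x ≠ 0)
    (R1 : j₁ * (x * (x - 16) ^ 4) = (x ^ 2 + 224 * x + 256) ^ 3)
    (R2 : j₂ * (x ^ 2 * (x - 16) ^ 2) = (x ^ 2 - 16 * x + 256) ^ 3) (hx : v.ord x < 0) :
    v.ord j₁ = v.ord x ∧ v.ord j₂ = 2 * v.ord x := by
  set w : F := x⁻¹ with hwdef
  have hxw : x * w = 1 := mul_inv_cancel₀ hx0
  have hw : 0 < v.ord w := by rw [hwdef, v.ord_inv]; omega
  have hwO : w ∈ v.toValuationSubring :=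
    (ord_nonneg_iff v (inv_ne_zero hx0)).mp hw.le
  have h16 : (16 : F) ∈ v.toValuationSubring := ofNat_mem_place v 16
  have h224 : (224 : F) ∈ v.toValuationSubring := ofNat_mem_place v 224
  have h256 : (256 : F) ∈ v.toValuationSubring := ofNat_mem_place v 256
  -- the three units
  obtain ⟨ha0, ha⟩ := ord_one_add v hw (neg_mem h16)
  obtain ⟨hb0, hb⟩ := ord_one_add v hw (add_mem h224 (mul_mem h256 hwO))
  obtain ⟨hc0, hc⟩ := ord_one_add v hw (add_mem (neg_mem h16) (mul_mem h256 hwO))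
  set a : F := 1 + w * (-16) with hadef
  set b : F := 1 + w * (224 + 256 * w) with hbdef
  set c : F := 1 + w * (-16 + 256 * w) with hcdef
  have e1 : x - 16 = x * a := by rw [hadef]; linear_combination (16 : F) * hxw
  have e2 : x ^ 2 + 224 * x + 256 = x ^ 2 * b := by
    rw [hbdef]; linear_combination (-224 * x - 256 * (x * w + 1)) * hxw
  have e3 : x ^ 2 - 16 * x + 256 = x ^ 2 * c := by
    rw [hcdef]; linear_combination (16 * x - 256 * (x * w + 1)) * hxw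
  have R1' : j₁ * a ^ 4 = x * b ^ 3 := by
    apply mul_left_cancel₀ (pow_ne_zero 5 hx0)
    rw [e1, e2] at R1
    linear_combination R1
  have R2' : j₂ * a ^ 2 = x ^ 2 * c ^ 3 := by
    apply mul_left_cancel₀ (pow_ne_zero 4 hx0)
    rw [e1, e3] at R2
    linear_combination R2
  have hj1 : j₁ ≠ 0 := by
    rintro rfl
    rw [zero_mul] at R1'
    exact mul_ne_zero hx0 (pow_ne_zero 3 hb0) R1'.symm
  have hj2 : j₂ ≠ 0 := by
    rintro rfl
    rw [zero_mul] at R2'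
    exact mul_ne_zero (pow_ne_zero 2 hx0) (pow_ne_zero 3 hc0) R2'.symm
  constructor
  · have h := congrArg v.ord R1'
    rw [v.ord_mul hj1 (pow_ne_zero 4 ha0), v.ord_mul hx0 (pow_ne_zero 3 hb0), ord_pow, ord_pow,
      ha, hb] at h
    linarith
  · have h := congrArg v.ord R2'
    rw [v.ord_mul hj2 (pow_ne_zero 2 ha0), v.ord_mul (pow_ne_zero 2 hx0) (pow_ne_zero 3 hc0),
      ord_pow, ord_pow, ord_pow, ha, hc] at h
    push_cast at h
    linarith

/-- at a zero of `x`. -/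
theorem ord_of_zero (hx0 : x ≠ 0)
    (R1 : j₁ * (x * (x - 16) ^ 4) = (x ^ 2 + 224 * x + 256) ^ 3)
    (R2 : j₂ * (x ^ 2 * (x - 16) ^ 2) = (x ^ 2 - 16 * x + 256) ^ 3) (hx : 0 < v.ord x) :
    v.ord j₁ = -v.ord x ∧ v.ord j₂ = -(2 * v.ord x) := by
  have hxO : x ∈ v.toValuationSubring := (ord_nonneg_iff v hx0).mp hx.le
  have h16 : (16 : F) ∈ v.toValuationSubring := ofNat_mem_place v 16
  have h224 : (224 : F) ∈ v.toValuationSubring := ofNat_mem_place v 224
  obtain ⟨ha0, ha⟩ := ord_ofNat_add v 16 hx (neg_mem (one_mem v.toValuationSubring))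
  obtain ⟨hb0, hb⟩ := ord_ofNat_add v 256 hx (add_mem hxO h224)
  obtain ⟨hc0, hc⟩ := ord_ofNat_add v 256 hx (sub_mem hxO h16)
  have e1 : x - 16 = -((16 : F) + x * (-1)) := by ring
  have e2 : x ^ 2 + 224 * x + 256 = (256 : F) + x * (x + 224) := by ring
  have e3 : x ^ 2 - 16 * x + 256 = (256 : F) + x * (x - 16) := by ring
  have hx16 : x - 16 ≠ 0 := by rw [e1]; exact neg_ne_zero.mpr ha0
  have hx16ord : v.ord (x - 16) = 0 := by rw [e1, ord_neg, ha]
  rw [e2] at R1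
  rw [e3] at R2
  have hj1 : j₁ ≠ 0 := by
    rintro rfl
    rw [zero_mul] at R1
    exact pow_ne_zero 3 hb0 R1.symm
  have hj2 : j₂ ≠ 0 := by
    rintro rfl
    rw [zero_mul] at R2
    exact pow_ne_zero 3 hc0 R2.symm
  constructor
  · have h := congrArg v.ord R1
    rw [v.ord_mul hj1 (mul_ne_zero hx0 (pow_ne_zero 4 hx16)),
      v.ord_mul hx0 (pow_ne_zero 4 hx16), ord_pow, ord_pow, hx16ord, hb] at h
    linarith
  · have h := congrArg v.ord R2
    rw [v.ord_mul hj2 (mul_ne_zero (pow_ne_zero 2 hx0) (pow_ne_zero 2 hx16)),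
      v.ord_mul (pow_ne_zero 2 hx0) (pow_ne_zero 2 hx16), ord_pow, ord_pow, ord_pow, hx16ord,
      hc] at h
    push_cast at h
    linarith

/-- at a zero of `x - 16`. -/
theorem ord_of_sixteen (hx16 : x - 16 ≠ 0)
    (R1 : j₁ * (x * (x - 16) ^ 4) = (x ^ 2 + 224 * x + 256) ^ 3)
    (R2 : j₂ * (x ^ 2 * (x - 16) ^ 2) = (x ^ 2 - 16 * x + 256) ^ 3) (hx : 0 < v.ord (x - 16)) :
    v.ord x = 0 ∧ v.ord j₁ = -(4 * v.ord (x - 16)) ∧ v.ord j₂ = -(2 * v.ord (x - 16)) := by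
  set w : F := x - 16 with hwdef
  have hwO : w ∈ v.toValuationSubring := (ord_nonneg_iff v hx16).mp hx.le
  have h16 : (16 : F) ∈ v.toValuationSubring := ofNat_mem_place v 16
  have h256 : (256 : F) ∈ v.toValuationSubring := ofNat_mem_place v 256
  obtain ⟨ha0, ha⟩ := ord_ofNat_add v 16 hx (one_mem v.toValuationSubring)
  obtain ⟨hb0, hb⟩ := ord_ofNat_add v 4096 hx (add_mem hwO h256)
  obtain ⟨hc0, hc⟩ := ord_ofNat_add v 256 hx (add_mem hwO h16)
  have e1 : x = (16 : F) + w * 1 := by rw [hwdef]; ring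
  have e2 : x ^ 2 + 224 * x + 256 = (4096 : F) + w * (w + 256) := by rw [hwdef]; ring
  have e3 : x ^ 2 - 16 * x + 256 = (256 : F) + w * (w + 16) := by rw [hwdef]; ring
  have hx0 : x ≠ 0 := by rw [e1]; exact ha0
  have hxord : v.ord x = 0 := by rw [e1, ha]
  rw [e2] at R1
  rw [e3] at R2
  have hj1 : j₁ ≠ 0 := by
    rintro rfl
    rw [zero_mul] at R1
    exact pow_ne_zero 3 hb0 R1.symm
  have hj2 : j₂ ≠ 0 := by
    rintro rfl
    rw [zero_mul] at R2
    exact pow_ne_zero 3 hc0 R2.symm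
  refine ⟨hxord, ?_, ?_⟩
  · have h := congrArg v.ord R1
    rw [v.ord_mul hj1 (mul_ne_zero hx0 (pow_ne_zero 4 hx16)),
      v.ord_mul hx0 (pow_ne_zero 4 hx16), ord_pow, ord_pow, hxord, hb] at h
    push_cast at h
    linarith
  · have h := congrArg v.ord R2
    rw [v.ord_mul hj2 (mul_ne_zero (pow_ne_zero 2 hx0) (pow_ne_zero 2 hx16)),
      v.ord_mul (pow_ne_zero 2 hx0) (pow_ne_zero 2 hx16), ord_pow, ord_pow, ord_pow, hxord,
      hc] at h
    push_cast at h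
    linarith

/-- away from the three cusps of the `x`-line, `j₁` is regular. -/
theorem ord_nonneg_of_unit (hx0 : x ≠ 0) (hx16 : x - 16 ≠ 0)
    (R1 : j₁ * (x * (x - 16) ^ 4) = (x ^ 2 + 224 * x + 256) ^ 3)
    (hx : v.ord x = 0) (hx' : v.ord (x - 16) = 0) : 0 ≤ v.ord j₁ := by
  rcases eq_or_ne j₁ 0 with rfl | hj1
  · rw [v.ord_zero]
  have hxO : x ∈ v.toValuationSubring := (ord_nonneg_iff v hx0).mp hx.ge
  have h224 : (224 : F) ∈ v.toValuationSubring := ofNat_mem_place v 224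
  have h256 : (256 : F) ∈ v.toValuationSubring := ofNat_mem_place v 256
  have hp : (x ^ 2 + 224 * x + 256) ^ 3 ∈ v.toValuationSubring :=
    pow_mem (add_mem (add_mem (pow_mem hxO 2) (mul_mem h224 hxO)) h256) 3
  have hp0 : (x ^ 2 + 224 * x + 256) ^ 3 ≠ 0 := by
    rw [← R1]
    exact mul_ne_zero hj1 (mul_ne_zero hx0 (pow_ne_zero 4 hx16))
  have h := congrArg v.ord R1
  rw [v.ord_mul hj1 (mul_ne_zero hx0 (pow_ne_zero 4 hx16)),
    v.ord_mul hx0 (pow_ne_zero 4 hx16), ord_pow, hx, hx'] at h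
  have := (ord_nonneg_iff v hp0).mpr hp
  linarith

variable (hx0 : x ≠ 0) (hx16 : x - 16 ≠ 0)
  (R1 : j₁ * (x * (x - 16) ^ 4) = (x ^ 2 + 224 * x + 256) ^ 3)
  (R2 : j₂ * (x ^ 2 * (x - 16) ^ 2) = (x ^ 2 - 16 * x + 256) ^ 3)

include hx0 hx16 R1 R2

/-- at a zero or pole of `x`: `v(j₂) = 2 v(j₁)`, `v(j₁) = -|v(x)|`. -/
theorem ord_eq_of_ord_ne_zero (hx : v.ord x ≠ 0) :
    v.ord j₂ = 2 * v.ord j₁ ∧ v.ord j₁ < 0 ∧ (v.ord x = v.ord j₁ ∨ v.ord x = -v.ord j₁) := by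
  rcases lt_or_gt_of_ne hx with h | h
  · obtain ⟨h1, h2⟩ := ord_of_pole v hx0 R1 R2 h
    exact ⟨by rw [h1, h2], by rw [h1]; exact h, Or.inl h1.symm⟩
  · obtain ⟨h1, h2⟩ := ord_of_zero v hx0 R1 R2 h
    exact ⟨by rw [h1, h2]; ring, by rw [h1]; omega, Or.inr (by rw [h1]; ring)⟩

/-- at a pole of `j₁` which is neither a zero nor a pole of `x`: `2 v(j₂) = v(j₁)`. -/
theorem ord_eq_of_ord_eq_zero (hj : v.ord j₁ < 0) (hx : v.ord x = 0) :
    2 * v.ord j₂ = v.ord j₁ := by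
  have hxO : x ∈ v.toValuationSubring := (ord_nonneg_iff v hx0).mp hx.ge
  have h16 : (16 : F) ∈ v.toValuationSubring := ofNat_mem_place v 16
  have h0 : 0 ≤ v.ord (x - 16) := (ord_nonneg_iff v hx16).mpr (sub_mem hxO h16)
  rcases h0.eq_or_lt with h | h
  · have := ord_nonneg_of_unit v hx0 hx16 R1 hx h.symm
    omega
  · obtain ⟨-, h1, h2⟩ := ord_of_sixteen v hx16 R1 R2 h
    rw [h1, h2]; ring

/-- where `j₁` is regular, `x` is a unit. -/
theorem ord_eq_zero_of_nonneg (hj : 0 ≤ v.ord j₁) : v.ord x = 0 := by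
  by_contra hx
  have := (ord_eq_of_ord_ne_zero v hx0 hx16 R1 R2 hx).2.1
  omega

end JRel

/-! ### The third relation (`j₄ = j(q⁴)`): poles and zeros of `x` are told apart -/

section JRel4

variable {K F : Type*} [Field K] [Field F] [Algebra K F] [CharZero K] (v : Place K F)
variable {x j₄ : F}

/-- at a pole of `x`: `v(j₄) = 4 v(x)`. -/
theorem ord_j4_of_pole (hx0 : x ≠ 0)
    (R4 : j₄ * (x * (x - 16)) = (x ^ 2 - 16 * x + 16) ^ 3) (hx : v.ord x < 0) :
    v.ord j₄ = 4 * v.ord x := by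
  set w : F := x⁻¹ with hwdef
  have hxw : x * w = 1 := mul_inv_cancel₀ hx0
  have hw : 0 < v.ord w := by rw [hwdef, v.ord_inv]; omega
  have hwO : w ∈ v.toValuationSubring :=
    (ord_nonneg_iff v (inv_ne_zero hx0)).mp hw.le
  have h16 : (16 : F) ∈ v.toValuationSubring := ofNat_mem_place v 16
  obtain ⟨ha0, ha⟩ := ord_one_add v hw (neg_mem h16)
  obtain ⟨hd0, hd⟩ := ord_one_add v hw (add_mem (neg_mem h16) (mul_mem h16 hwO))
  set a : F := 1 + w * (-16) with hadef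
  set d : F := 1 + w * (-16 + 16 * w) with hddef
  have e1 : x - 16 = x * a := by rw [hadef]; linear_combination (16 : F) * hxw
  have e4 : x ^ 2 - 16 * x + 16 = x ^ 2 * d := by
    rw [hddef]; linear_combination (16 * x - 16 * (x * w + 1)) * hxw
  have R4' : j₄ * a = x ^ 4 * d ^ 3 := by
    apply mul_left_cancel₀ (pow_ne_zero 2 hx0)
    rw [e1, e4] at R4
    linear_combination R4
  have hj4 : j₄ ≠ 0 := by
    rintro rfl
    rw [zero_mul] at R4'
    exact mul_ne_zero (pow_ne_zero 4 hx0) (pow_ne_zero 3 hd0) R4'.symm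
  have h := congrArg v.ord R4'
  rw [v.ord_mul hj4 ha0, v.ord_mul (pow_ne_zero 4 hx0) (pow_ne_zero 3 hd0), ord_pow, ord_pow,
    ha, hd] at h
  push_cast at h
  linarith

/-- at a zero of `x`: `v(j₄) = -v(x)`. -/
theorem ord_j4_of_zero (hx0 : x ≠ 0)
    (R4 : j₄ * (x * (x - 16)) = (x ^ 2 - 16 * x + 16) ^ 3) (hx : 0 < v.ord x) :
    v.ord j₄ = -v.ord x := by
  have hxO : x ∈ v.toValuationSubring := (ord_nonneg_iff v hx0).mp hx.le
  have h16 : (16 : F) ∈ v.toValuationSubring := ofNat_mem_place v 16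
  obtain ⟨ha0, ha⟩ := ord_ofNat_add v 16 hx (neg_mem (one_mem v.toValuationSubring))
  obtain ⟨hd0, hd⟩ := ord_ofNat_add v 16 hx (sub_mem hxO h16)
  have e1 : x - 16 = -((16 : F) + x * (-1)) := by ring
  have e4 : x ^ 2 - 16 * x + 16 = (16 : F) + x * (x - 16) := by ring
  have hx16 : x - 16 ≠ 0 := by rw [e1]; exact neg_ne_zero.mpr ha0
  have hx16ord : v.ord (x - 16) = 0 := by rw [e1, ord_neg, ha]
  rw [e4] at R4
  have hj4 : j₄ ≠ 0 := by
    rintro rfl
    rw [zero_mul] at R4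
    exact pow_ne_zero 3 hd0 R4.symm
  have h := congrArg v.ord R4
  rw [v.ord_mul hj4 (mul_ne_zero hx0 hx16), v.ord_mul hx0 hx16, ord_pow, hx16ord, hd] at h
  linarith

end JRel4

end Fermat.Agent.S34x.Cusp
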