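import Fermat.Agent.S34x.Cusp.Ratio
import Fermat.Agent.S34x.Cusp.JRel4

/-!
# P-S34 (vi)(A), part 3: the cusp analysis of `y = t^q / u`, `t = x₄(z)`, `u = x₄(q z)`

`k` algebraically closed of characteristic zero, `N` a level with `2 q ∣ N`, `q` an odd prime.
Let `t u : Fk k N` satisfy the `j`-relations of the Hauptmodul `x₄` with `(j(z), j(2z))` resp.
`(j(qz), j(2qz))`.  Then at every place `v` of `Fk k N`

  `0 ≤ v(t) → v(u) ≤ q v(t)`   and   `v(t) ≤ 0 → q v(t) ≤ v(u)`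

(`ord_le_of_jRel`), i.e. `y = t^q / u` is regular off the poles of `t` and `y⁻¹` is regular off the
zeros of `t`.
-/

set_option autoImplicit false

noncomputable section

namespace Fermat.Agent.S34x.Cusp

open Polynomial ModularCurve IntermediateField AlgebraicCurve
open Fermat.Agent.S28 Fermat.Agent.S28.Tower
open Fermat.Agent.Gateway.GoodRed Fermat.Agent.Gateway.GoodRed.ConjFamily

section Abstract

variable {k : Type} [Field k] [IsAlgClosed k] [CharZero k] {N : ℕ} [NeZero N]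

theorem jdF_congr {d d' : ℕ} (h : d = d') (hd : d ∣ N) (hd' : d' ∣ N) :
    jdF (k := k) d hd = jdF d' hd' := by
  subst h; rfl

/-- **Theorem A.** -/
theorem ord_le_of_jRel (hNk : (N : k) ≠ 0) {q : ℕ} (hq : q.Prime) (hq2 : q ≠ 2)
    (h2N : 2 ∣ N) (hqN : q ∣ N) (h2qN : 2 * q ∣ N)
    {t u : Fk k N} (ht0 : t ≠ 0) (ht16 : t - 16 ≠ 0) (hu0 : u ≠ 0) (hu16 : u - 16 ≠ 0)
    (T1 : jdF 1 (one_dvd N) * (t * (t - 16) ^ 4) = (t ^ 2 + 224 * t + 256) ^ 3)
    (T2 : jdF 2 h2N * (t ^ 2 * (t - 16) ^ 2) = (t ^ 2 - 16 * t + 256) ^ 3)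
    (U1 : jdF q hqN * (u * (u - 16) ^ 4) = (u ^ 2 + 224 * u + 256) ^ 3)
    (U2 : jdF (2 * q) h2qN * (u ^ 2 * (u - 16) ^ 2) = (u ^ 2 - 16 * u + 256) ^ 3)
    (v : Place k (Fk k N)) :
    (0 ≤ v.ord t → v.ord u ≤ q * v.ord t) ∧ (v.ord t ≤ 0 → q * v.ord t ≤ v.ord u) := by
  have hqpos : (2 : ℤ) ≤ q := by exact_mod_cast hq.two_le
  by_cases hcusp : v.ord (jFk k N) < 0
  · -- a cusp
    have h1N : (1 : ℕ) ∣ N := one_dvd N
    have h12N : 1 * 2 ∣ N := by rwa [one_mul]
    have h1qN : 1 * q ∣ N := by rwa [one_mul]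
    have h12qN : 1 * 2 * q ∣ N := by rwa [one_mul]
    have e2 : jdF (k := k) (1 * 2) h12N = jdF 2 h2N := jdF_congr (one_mul 2) _ _
    have eq : jdF (k := k) (1 * q) h1qN = jdF q hqN := jdF_congr (one_mul q) _ _
    have e2q : jdF (k := k) (1 * 2 * q) h12qN = jdF (2 * q) h2qN :=
      jdF_congr (by rw [one_mul]) _ _
    have hJ1 : v.ord (jdF 1 h1N) < 0 := ord_jdF_neg hNk v hcusp h1N
    have hJ2 : v.ord (jdF 2 h2N) < 0 := ord_jdF_neg hNk v hcusp h2N
    have hJq : v.ord (jdF q hqN) < 0 := ord_jdF_neg hNk v hcusp hqN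
    have hJ2q : v.ord (jdF (2 * q) h2qN) < 0 := ord_jdF_neg hNk v hcusp h2qN
    have hmul := ord_mul_eq hNk v hcusp Nat.prime_two hq (Ne.symm hq2) h12qN h12N h1qN h1N
    rw [e2, eq, e2q] at hmul
    have hstep := ord_jdF_step hNk v hcusp hq h1qN h1N
    rw [eq] at hstep
    by_cases ht : v.ord t = 0
    · -- `t` a unit: `u` is a unit
      have hT := ord_eq_of_ord_eq_zero v ht0 ht16 T1 T2 hJ1 ht
      have hu : v.ord u = 0 := by
        by_contra hu
        obtain ⟨hU, -, -⟩ := ord_eq_of_ord_ne_zero v hu0 hu16 U1 U2 hu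
        -- 2 v(J2) = v(J1), v(J2q) = 2 v(Jq), v(J2q) v(J1) = v(J2) v(Jq)
        rw [hU, ← hT] at hmul
        have : v.ord (jdF 2 h2N) * v.ord (jdF q hqN) * 3 = 0 := by linear_combination hmul
        have h3 : v.ord (jdF 2 h2N) * v.ord (jdF q hqN) ≠ 0 := mul_ne_zero hJ2.ne hJq.ne
        exact h3 (by omega)
      rw [ht, hu]
      simp
    · obtain ⟨-, -, hT⟩ := ord_eq_of_ord_ne_zero v ht0 ht16 T1 T2 ht
      constructor
      · intro ht'
        have htpos : 0 < v.ord t := lt_of_le_of_ne ht' (Ne.symm ht)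
        have hteq : v.ord t = -v.ord (jdF 1 h1N) := by
          rcases hT with h | h
          · omega
          · exact h
        by_cases hu : v.ord u ≤ 0
        · nlinarith
        · have hu' : v.ord u ≠ 0 := by omega
          obtain ⟨-, -, hU⟩ := ord_eq_of_ord_ne_zero v hu0 hu16 U1 U2 hu'
          have hueq : v.ord u = -v.ord (jdF q hqN) := by
            rcases hU with h | h
            · omega
            · exact h
          rw [hueq, hteq]
          rcases hstep with h | h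
          · rw [h]; linarith
          · nlinarith
      · intro ht'
        have htneg : v.ord t < 0 := lt_of_le_of_ne ht' ht
        have hteq : v.ord t = v.ord (jdF 1 h1N) := by
          rcases hT with h | h
          · exact h
          · omega
        by_cases hu : 0 ≤ v.ord u
        · nlinarith
        · have hu' : v.ord u ≠ 0 := by omega
          obtain ⟨-, -, hU⟩ := ord_eq_of_ord_ne_zero v hu0 hu16 U1 U2 hu'
          have hueq : v.ord u = v.ord (jdF q hqN) := by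
            rcases hU with h | h
            · exact h
            · omega
          rw [hueq, hteq]
          rcases hstep with h | h
          · rw [h]
          · nlinarith
  · -- not a cusp: `t`, `u` are units
    rw [not_lt] at hcusp
    have h1N : (1 : ℕ) ∣ N := one_dvd N
    have h1qN : 1 * q ∣ N := by rwa [one_mul]
    have eq : jdF (k := k) (1 * q) h1qN = jdF q hqN := jdF_congr (one_mul q) _ _
    have hJ1 : 0 ≤ v.ord (jdF 1 h1N) := by rw [jdF_one]; exact hcusp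
    have hJq : 0 ≤ v.ord (jdF q hqN) := by
      have := ord_jdF_nonneg_step hNk v hq h1qN h1N hJ1
      rwa [eq] at this
    have ht := ord_eq_zero_of_nonneg v ht0 ht16 T1 T2 hJ1
    have hu := ord_eq_zero_of_nonneg v hu0 hu16 U1 U2 hJq
    rw [ht, hu]
    simp

/-- **Theorem A, precise form** (uses the third relation): at every place,
`v(u) = q v(t)` or `q v(u) = v(t)`; in particular `t` and `u` have the same zeros and the same
poles. -/
theorem ord_eq_of_jRel (hNk : (N : k) ≠ 0) {q : ℕ} (hq : q.Prime) (hq2 : q ≠ 2)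
    (h2N : 2 ∣ N) (h4N : 4 ∣ N) (hqN : q ∣ N) (h2qN : 2 * q ∣ N) (h4qN : 4 * q ∣ N)
    {t u : Fk k N} (ht0 : t ≠ 0) (ht16 : t - 16 ≠ 0) (hu0 : u ≠ 0) (hu16 : u - 16 ≠ 0)
    (T1 : jdF 1 (one_dvd N) * (t * (t - 16) ^ 4) = (t ^ 2 + 224 * t + 256) ^ 3)
    (T2 : jdF 2 h2N * (t ^ 2 * (t - 16) ^ 2) = (t ^ 2 - 16 * t + 256) ^ 3)
    (T4 : jdF 4 h4N * (t * (t - 16)) = (t ^ 2 - 16 * t + 16) ^ 3)
    (U1 : jdF q hqN * (u * (u - 16) ^ 4) = (u ^ 2 + 224 * u + 256) ^ 3)
    (U2 : jdF (2 * q) h2qN * (u ^ 2 * (u - 16) ^ 2) = (u ^ 2 - 16 * u + 256) ^ 3)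
    (U4 : jdF (4 * q) h4qN * (u * (u - 16)) = (u ^ 2 - 16 * u + 16) ^ 3)
    (v : Place k (Fk k N)) :
    v.ord u = q * v.ord t ∨ q * v.ord u = v.ord t := by
  have hA := ord_le_of_jRel hNk hq hq2 h2N hqN h2qN ht0 ht16 hu0 hu16 T1 T2 U1 U2 v
  have hqpos : (2 : ℤ) ≤ q := by exact_mod_cast hq.two_le
  by_cases ht : v.ord t = 0
  · -- `t` a unit: `u` a unit
    have h1 := hA.1 ht.ge
    have h2 := hA.2 ht.le
    rw [ht, mul_zero] at h1 h2
    left
    rw [ht, mul_zero]
    omega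
  -- `t` has a zero or a pole: `v` is a cusp
  have hcusp : v.ord (jFk k N) < 0 := by
    by_contra hcon
    rw [not_lt, ← jdF_one] at hcon
    exact ht (ord_eq_zero_of_nonneg v ht0 ht16 T1 T2 hcon)
  have h1N : (1 : ℕ) ∣ N := one_dvd N
  have h12N : 1 * 2 ∣ N := by rwa [one_mul]
  have h1qN : 1 * q ∣ N := by rwa [one_mul]
  have h12qN : 1 * 2 * q ∣ N := by rwa [one_mul]
  have h22N : 2 * 2 ∣ N := h4N
  have h22qN : 2 * 2 * q ∣ N := h4qN
  have e2 : jdF (k := k) (1 * 2) h12N = jdF 2 h2N := jdF_congr (one_mul 2) _ _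
  have eq : jdF (k := k) (1 * q) h1qN = jdF q hqN := jdF_congr (one_mul q) _ _
  have e2q : jdF (k := k) (1 * 2 * q) h12qN = jdF (2 * q) h2qN :=
    jdF_congr (by rw [one_mul]) _ _
  have e4 : jdF (k := k) (2 * 2) h22N = jdF 4 h4N := jdF_congr (by norm_num) _ _
  have e4q : jdF (k := k) (2 * 2 * q) h22qN = jdF (4 * q) h4qN := jdF_congr (by norm_num) _ _
  have hJ1 : v.ord (jdF 1 h1N) < 0 := ord_jdF_neg hNk v hcusp h1N
  have hJ2 : v.ord (jdF 2 h2N) < 0 := ord_jdF_neg hNk v hcusp h2N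
  have hJ4 : v.ord (jdF 4 h4N) < 0 := ord_jdF_neg hNk v hcusp h4N
  have hJq : v.ord (jdF q hqN) < 0 := ord_jdF_neg hNk v hcusp hqN
  have hJ2q : v.ord (jdF (2 * q) h2qN) < 0 := ord_jdF_neg hNk v hcusp h2qN
  have hJ4q : v.ord (jdF (4 * q) h4qN) < 0 := ord_jdF_neg hNk v hcusp h4qN
  have hmul := ord_mul_eq hNk v hcusp Nat.prime_two hq (Ne.symm hq2) h12qN h12N h1qN h1N
  rw [e2, eq, e2q] at hmul
  have hmul4 := ord_mul_eq hNk v hcusp Nat.prime_two hq (Ne.symm hq2) h22qN h22N h2qN h2N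
  rw [e4, e4q] at hmul4
  have hstep := ord_jdF_step hNk v hcusp hq h1qN h1N
  rw [eq] at hstep
  obtain ⟨hT2, -, hT⟩ := ord_eq_of_ord_ne_zero v ht0 ht16 T1 T2 ht
  -- `u` is not a unit
  have hu : v.ord u ≠ 0 := by
    intro hu
    have hU := ord_eq_of_ord_eq_zero v hu0 hu16 U1 U2 hJq hu
    rw [hT2, ← hU] at hmul
    have h3 : v.ord (jdF (2 * q) h2qN) * v.ord (jdF 1 h1N) ≠ 0 := mul_ne_zero hJ2q.ne hJ1.ne
    apply h3
    linarith
  obtain ⟨hU2, -, hU⟩ := ord_eq_of_ord_ne_zero v hu0 hu16 U1 U2 hu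
  -- the signs agree
  have hsign : (v.ord t < 0 ∧ v.ord u < 0) ∨ (0 < v.ord t ∧ 0 < v.ord u) := by
    rcases lt_or_gt_of_ne ht with htn | htp
    · left
      refine ⟨htn, ?_⟩
      by_contra hcon
      have hup : 0 < v.ord u := by omega
      -- `t` a pole, `u` a zero
      have a1 := ord_j4_of_pole v ht0 T4 htn
      have a2 := (ord_of_pole v ht0 T1 T2 htn).2
      have b1 := ord_j4_of_zero v hu0 U4 hup
      have b2 := (ord_of_zero v hu0 U1 U2 hup).2
      -- v(J4) = 2 v(J2), 2 v(J4q) = v(J2q), v(J4q) v(J2) = v(J4) v(J2q)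
      have c1 : v.ord (jdF 4 h4N) = 2 * v.ord (jdF 2 h2N) := by rw [a1, a2]; ring
      have c2 : 2 * v.ord (jdF (4 * q) h4qN) = v.ord (jdF (2 * q) h2qN) := by rw [b1, b2]; ring
      rw [c1, ← c2] at hmul4
      have h3 : v.ord (jdF (4 * q) h4qN) * v.ord (jdF 2 h2N) ≠ 0 := mul_ne_zero hJ4q.ne hJ2.ne
      apply h3
      linarith
    · right
      refine ⟨htp, ?_⟩
      by_contra hcon
      have hun : v.ord u < 0 := by omega
      have a1 := ord_j4_of_zero v ht0 T4 htp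
      have a2 := (ord_of_zero v ht0 T1 T2 htp).2
      have b1 := ord_j4_of_pole v hu0 U4 hun
      have b2 := (ord_of_pole v hu0 U1 U2 hun).2
      have c1 : 2 * v.ord (jdF 4 h4N) = v.ord (jdF 2 h2N) := by rw [a1, a2]; ring
      have c2 : v.ord (jdF (4 * q) h4qN) = 2 * v.ord (jdF (2 * q) h2qN) := by rw [b1, b2]; ring
      rw [c2, ← c1] at hmul4
      have h3 : v.ord (jdF (2 * q) h2qN) * v.ord (jdF 4 h4N) ≠ 0 := mul_ne_zero hJ2q.ne hJ4.ne
      apply h3
      linarith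
  rcases hsign with ⟨htn, hun⟩ | ⟨htp, hup⟩
  · have hteq : v.ord t = v.ord (jdF 1 h1N) := by
      rcases hT with h | h
      · exact h
      · omega
    have hueq : v.ord u = v.ord (jdF q hqN) := by
      rcases hU with h | h
      · exact h
      · omega
    rw [hteq, hueq]
    exact hstep
  · have hteq : v.ord t = -v.ord (jdF 1 h1N) := by
      rcases hT with h | h
      · omega
      · exact h
    have hueq : v.ord u = -v.ord (jdF q hqN) := by
      rcases hU with h | h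
      · omega
      · exact h
    rw [hteq, hueq]
    rcases hstep with h | h
    · left; rw [h]; ring
    · right; rw [← h]; ring

end Abstract

end Fermat.Agent.S34x.Cusp
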