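import Fermat.Agent.S34x.Cusp.JRel4

/-!
# P-S34 (vi)(A), level 9: the shifted Hauptmodul of `X₀(9)` at a place, from its `j`-relations

`F / K` a function field, `char K = 0`, `v` a place.  Let `z, j₁, j₃, j₉ : F` satisfy
`j₁ z⁹ (z² + 9z + 27) = (z + 9)³ (z³ + 243 z² + 2187 z + 6561)³`,
`j₃ z³ (z² + 9z + 27)³ = (z + 3)³ (z³ + 9 z² + 27 z + 243)³`,
`j₉ z (z² + 9z + 27) = (z + 3)³ (z³ + 9 z² + 27 z + 3)³`
(the relations of `z = y₉ - 3`, `j₁ = j(q)`, `j₃ = j(q³)`, `j₉ = j(q⁹)`, see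
`Gateway/AuxLevel/Shifted9`).  With `s := z² + 9z + 27`:

* pole of `z`:  `(v j₁, v j₃, v j₉) = (v z, 3 v z, 9 v z)`                 (`ord_of_pole9`);
* zero of `z`:  `(v j₁, v j₃, v j₉) = (-9 v z, -3 v z, -v z)`              (`ord_of_zero9`);
* zero of `s`:  `v z = 0`, `(v j₁, v j₃, v j₉) = (-v s, -3 v s, -v s)`     (`ord_of_quad9`);
* otherwise `v j₁ ≥ 0`                                                  (`ord_nonneg_of_unit9`).

Consumer forms: `ord_of_side9` (pattern `(e, 3e, e)` at a pole of `j₁` with `v z = 0`) and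
`ord_eq_zero_of_nonneg9` (`z` is a unit wherever `j₁` is regular).
-/

set_option autoImplicit false
set_option linter.unusedSectionVars false

namespace Fermat.Agent.S34x.Cusp

open AlgebraicCurve
open Fermat.Agent.S24.ZP

section Aux

variable {K F : Type*} [Field K] [Field F] [Algebra K F] (v : Place K F)

/-- `j d = n`, `d, n ≠ 0` ⟹ `v(j) = v(n) - v(d)`. -/
theorem ord_eq_sub_of_mul_eq {j d n : F} (hd : d ≠ 0) (hn : n ≠ 0) (R : j * d = n) :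
    v.ord j = v.ord n - v.ord d := by
  have hj : j ≠ 0 := by
    rintro rfl
    rw [zero_mul] at R
    exact hn R.symm
  have h := congrArg v.ord R
  rw [v.ord_mul hj hd] at h
  omega

/-- a product of two regular functions which is a unit: both factors are units. -/
theorem ord_eq_zero_of_mul {a b : F} (ha : a ∈ v.toValuationSubring)
    (hb : b ∈ v.toValuationSubring) (hab0 : a * b ≠ 0) (hab : v.ord (a * b) = 0) :
    v.ord a = 0 ∧ v.ord b = 0 := by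
  have ha0 : a ≠ 0 := left_ne_zero_of_mul hab0
  have hb0 : b ≠ 0 := right_ne_zero_of_mul hab0
  rw [v.ord_mul ha0 hb0] at hab
  have h1 := (ord_nonneg_iff v ha0).mpr ha
  have h2 := (ord_nonneg_iff v hb0).mpr hb
  omega

end Aux

section JRel9

variable {K F : Type*} [Field K] [Field F] [Algebra K F] [CharZero K] (v : Place K F)
variable {z j₁ j₃ j₉ : F}

/-- at a pole of `z`: `v(z² + 9z + 27) = 2 v(z)`. -/
theorem ord_quad_of_pole9 (hz0 : z ≠ 0) (hz : v.ord z < 0) :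
    z ^ 2 + 9 * z + 27 ≠ 0 ∧ v.ord (z ^ 2 + 9 * z + 27) = 2 * v.ord z := by
  set w : F := z⁻¹ with hwdef
  have hzw : z * w = 1 := mul_inv_cancel₀ hz0
  have hw : 0 < v.ord w := by rw [hwdef, v.ord_inv]; omega
  have hwO : w ∈ v.toValuationSubring :=
    (ord_nonneg_iff v (inv_ne_zero hz0)).mp hw.le
  have h9 : (9 : F) ∈ v.toValuationSubring := ofNat_mem_place v 9
  have h27 : (27 : F) ∈ v.toValuationSubring := ofNat_mem_place v 27
  obtain ⟨hs0, hs⟩ := ord_one_add v hw (add_mem h9 (mul_mem h27 hwO))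
  have e : z ^ 2 + 9 * z + 27 = z ^ 2 * (1 + w * (9 + 27 * w)) := by
    linear_combination (-(9 * z + 27 * (z * w + 1))) * hzw
  rw [e]
  refine ⟨mul_ne_zero (pow_ne_zero 2 hz0) hs0, ?_⟩
  rw [v.ord_mul (pow_ne_zero 2 hz0) hs0, ord_pow, hs]
  push_cast
  ring

/-- at a zero of `z`: `z² + 9z + 27` is a unit. -/
theorem ord_quad_of_zero9 (hz0 : z ≠ 0) (hz : 0 < v.ord z) :
    z ^ 2 + 9 * z + 27 ≠ 0 ∧ v.ord (z ^ 2 + 9 * z + 27) = 0 := by
  have hzO : z ∈ v.toValuationSubring := (ord_nonneg_iff v hz0).mp hz.le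
  have h9 : (9 : F) ∈ v.toValuationSubring := ofNat_mem_place v 9
  have e : z ^ 2 + 9 * z + 27 = (27 : F) + z * (z + 9) := by ring
  rw [e]
  exact ord_ofNat_add v 27 hz (add_mem hzO h9)

/-- at a pole of `z`: `(v j₁, v j₃, v j₉) = (v z, 3 v z, 9 v z)`. -/
theorem ord_of_pole9 (hz0 : z ≠ 0)
    (R1 : j₁ * (z ^ 9 * (z ^ 2 + 9 * z + 27)) =
      (z + 9) ^ 3 * (z ^ 3 + 243 * z ^ 2 + 2187 * z + 6561) ^ 3)
    (R3 : j₃ * (z ^ 3 * (z ^ 2 + 9 * z + 27) ^ 3) =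
      (z + 3) ^ 3 * (z ^ 3 + 9 * z ^ 2 + 27 * z + 243) ^ 3)
    (R9 : j₉ * (z * (z ^ 2 + 9 * z + 27)) =
      (z + 3) ^ 3 * (z ^ 3 + 9 * z ^ 2 + 27 * z + 3) ^ 3)
    (hz : v.ord z < 0) :
    v.ord j₁ = v.ord z ∧ v.ord j₃ = 3 * v.ord z ∧ v.ord j₉ = 9 * v.ord z := by
  set w : F := z⁻¹ with hwdef
  have hzw : z * w = 1 := mul_inv_cancel₀ hz0
  have hw : 0 < v.ord w := by rw [hwdef, v.ord_inv]; omega
  have hwO : w ∈ v.toValuationSubring :=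
    (ord_nonneg_iff v (inv_ne_zero hz0)).mp hw.le
  have h3 : (3 : F) ∈ v.toValuationSubring := ofNat_mem_place v 3
  have h9 : (9 : F) ∈ v.toValuationSubring := ofNat_mem_place v 9
  have h27 : (27 : F) ∈ v.toValuationSubring := ofNat_mem_place v 27
  have h243 : (243 : F) ∈ v.toValuationSubring := ofNat_mem_place v 243
  have h2187 : (2187 : F) ∈ v.toValuationSubring := ofNat_mem_place v 2187
  have h6561 : (6561 : F) ∈ v.toValuationSubring := ofNat_mem_place v 6561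
  have hw2 : w ^ 2 ∈ v.toValuationSubring := pow_mem hwO 2
  -- the units
  obtain ⟨hs0, hs⟩ := ord_one_add v hw (add_mem h9 (mul_mem h27 hwO))
  obtain ⟨ha0, ha⟩ := ord_one_add v hw h9
  obtain ⟨hb0, hb⟩ := ord_one_add v hw
    (add_mem (add_mem h243 (mul_mem h2187 hwO)) (mul_mem h6561 hw2))
  obtain ⟨hc0, hc⟩ := ord_one_add v hw h3
  obtain ⟨hd0, hd⟩ := ord_one_add v hw
    (add_mem (add_mem h9 (mul_mem h27 hwO)) (mul_mem h243 hw2))
  obtain ⟨he0, he⟩ := ord_one_add v hw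
    (add_mem (add_mem h9 (mul_mem h27 hwO)) (mul_mem h3 hw2))
  set s : F := 1 + w * (9 + 27 * w) with hsdef
  set a : F := 1 + w * 9 with hadef
  set b : F := 1 + w * (243 + 2187 * w + 6561 * w ^ 2) with hbdef
  set c : F := 1 + w * 3 with hcdef
  set d : F := 1 + w * (9 + 27 * w + 243 * w ^ 2) with hddef
  set e : F := 1 + w * (9 + 27 * w + 3 * w ^ 2) with hedef
  have es : z ^ 2 + 9 * z + 27 = z ^ 2 * s := by
    rw [hsdef]; linear_combination (-(9 * z + 27 * (z * w + 1))) * hzw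
  have ea : z + 9 = z * a := by
    rw [hadef]; linear_combination (-9 : F) * hzw
  have eb : z ^ 3 + 243 * z ^ 2 + 2187 * z + 6561 = z ^ 3 * b := by
    rw [hbdef]
    linear_combination (-(243 * z ^ 2 + 2187 * z * (z * w + 1) +
      6561 * (z ^ 2 * w ^ 2 + z * w + 1))) * hzw
  have ec : z + 3 = z * c := by
    rw [hcdef]; linear_combination (-3 : F) * hzw
  have ed : z ^ 3 + 9 * z ^ 2 + 27 * z + 243 = z ^ 3 * d := by
    rw [hddef]
    linear_combination (-(9 * z ^ 2 + 27 * z * (z * w + 1) +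
      243 * (z ^ 2 * w ^ 2 + z * w + 1))) * hzw
  have ee : z ^ 3 + 9 * z ^ 2 + 27 * z + 3 = z ^ 3 * e := by
    rw [hedef]
    linear_combination (-(9 * z ^ 2 + 27 * z * (z * w + 1) +
      3 * (z ^ 2 * w ^ 2 + z * w + 1))) * hzw
  have R1' : j₁ * s = z * (a ^ 3 * b ^ 3) := by
    apply mul_left_cancel₀ (pow_ne_zero 11 hz0)
    rw [es, ea, eb] at R1
    linear_combination R1
  have R3' : j₃ * s ^ 3 = z ^ 3 * (c ^ 3 * d ^ 3) := by
    apply mul_left_cancel₀ (pow_ne_zero 9 hz0)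
    rw [es, ec, ed] at R3
    linear_combination R3
  have R9' : j₉ * s = z ^ 9 * (c ^ 3 * e ^ 3) := by
    apply mul_left_cancel₀ (pow_ne_zero 3 hz0)
    rw [es, ec, ee] at R9
    linear_combination R9
  have hab0 : a ^ 3 * b ^ 3 ≠ 0 := mul_ne_zero (pow_ne_zero 3 ha0) (pow_ne_zero 3 hb0)
  have hcd0 : c ^ 3 * d ^ 3 ≠ 0 := mul_ne_zero (pow_ne_zero 3 hc0) (pow_ne_zero 3 hd0)
  have hce0 : c ^ 3 * e ^ 3 ≠ 0 := mul_ne_zero (pow_ne_zero 3 hc0) (pow_ne_zero 3 he0)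
  have hab : v.ord (a ^ 3 * b ^ 3) = 0 := by
    rw [v.ord_mul (pow_ne_zero 3 ha0) (pow_ne_zero 3 hb0), ord_pow, ord_pow, ha, hb]; simp
  have hcd : v.ord (c ^ 3 * d ^ 3) = 0 := by
    rw [v.ord_mul (pow_ne_zero 3 hc0) (pow_ne_zero 3 hd0), ord_pow, ord_pow, hc, hd]; simp
  have hce : v.ord (c ^ 3 * e ^ 3) = 0 := by
    rw [v.ord_mul (pow_ne_zero 3 hc0) (pow_ne_zero 3 he0), ord_pow, ord_pow, hc, he]; simp
  refine ⟨?_, ?_, ?_⟩
  · have h := ord_eq_sub_of_mul_eq v hs0 (mul_ne_zero hz0 hab0) R1'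
    rw [v.ord_mul hz0 hab0, hab, hs] at h
    omega
  · have h := ord_eq_sub_of_mul_eq v (pow_ne_zero 3 hs0)
      (mul_ne_zero (pow_ne_zero 3 hz0) hcd0) R3'
    rw [v.ord_mul (pow_ne_zero 3 hz0) hcd0, hcd, ord_pow, ord_pow, hs] at h
    push_cast at h
    omega
  · have h := ord_eq_sub_of_mul_eq v hs0 (mul_ne_zero (pow_ne_zero 9 hz0) hce0) R9'
    rw [v.ord_mul (pow_ne_zero 9 hz0) hce0, hce, ord_pow, hs] at h
    push_cast at h
    omega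

/-- at a zero of `z`: `(v j₁, v j₃, v j₉) = (-9 v z, -3 v z, -v z)`. -/
theorem ord_of_zero9 (hz0 : z ≠ 0)
    (R1 : j₁ * (z ^ 9 * (z ^ 2 + 9 * z + 27)) =
      (z + 9) ^ 3 * (z ^ 3 + 243 * z ^ 2 + 2187 * z + 6561) ^ 3)
    (R3 : j₃ * (z ^ 3 * (z ^ 2 + 9 * z + 27) ^ 3) =
      (z + 3) ^ 3 * (z ^ 3 + 9 * z ^ 2 + 27 * z + 243) ^ 3)
    (R9 : j₉ * (z * (z ^ 2 + 9 * z + 27)) =
      (z + 3) ^ 3 * (z ^ 3 + 9 * z ^ 2 + 27 * z + 3) ^ 3)
    (hz : 0 < v.ord z) :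
    v.ord j₁ = -(9 * v.ord z) ∧ v.ord j₃ = -(3 * v.ord z) ∧ v.ord j₉ = -v.ord z := by
  have hzO : z ∈ v.toValuationSubring := (ord_nonneg_iff v hz0).mp hz.le
  have h9 : (9 : F) ∈ v.toValuationSubring := ofNat_mem_place v 9
  have h27 : (27 : F) ∈ v.toValuationSubring := ofNat_mem_place v 27
  have h243 : (243 : F) ∈ v.toValuationSubring := ofNat_mem_place v 243
  have h2187 : (2187 : F) ∈ v.toValuationSubring := ofNat_mem_place v 2187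
  have hz2 : z ^ 2 ∈ v.toValuationSubring := pow_mem hzO 2
  obtain ⟨hs0, hs⟩ := ord_quad_of_zero9 v hz0 hz
  have hq : z ^ 2 + 9 * z + 27 ∈ v.toValuationSubring :=
    add_mem (add_mem hz2 (mul_mem h9 hzO)) h27
  -- the numerators are units
  have ea : z + 9 = (9 : F) + z * 1 := by ring
  have eb : z ^ 3 + 243 * z ^ 2 + 2187 * z + 6561 =
      (6561 : F) + z * (z ^ 2 + 243 * z + 2187) := by ring
  have ec : z + 3 = (3 : F) + z * 1 := by ring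
  have ed : z ^ 3 + 9 * z ^ 2 + 27 * z + 243 = (243 : F) + z * (z ^ 2 + 9 * z + 27) := by ring
  have ee : z ^ 3 + 9 * z ^ 2 + 27 * z + 3 = (3 : F) + z * (z ^ 2 + 9 * z + 27) := by ring
  obtain ⟨ha0, ha⟩ : z + 9 ≠ 0 ∧ v.ord (z + 9) = 0 := by
    rw [ea]; exact ord_ofNat_add v 9 hz (one_mem _)
  obtain ⟨hb0, hb⟩ : z ^ 3 + 243 * z ^ 2 + 2187 * z + 6561 ≠ 0 ∧
      v.ord (z ^ 3 + 243 * z ^ 2 + 2187 * z + 6561) = 0 := by
    rw [eb]
    exact ord_ofNat_add v 6561 hz (add_mem (add_mem hz2 (mul_mem h243 hzO)) h2187)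
  obtain ⟨hc0, hc⟩ : z + 3 ≠ 0 ∧ v.ord (z + 3) = 0 := by
    rw [ec]; exact ord_ofNat_add v 3 hz (one_mem _)
  obtain ⟨hd0, hd⟩ : z ^ 3 + 9 * z ^ 2 + 27 * z + 243 ≠ 0 ∧
      v.ord (z ^ 3 + 9 * z ^ 2 + 27 * z + 243) = 0 := by
    rw [ed]; exact ord_ofNat_add v 243 hz hq
  obtain ⟨he0, he⟩ : z ^ 3 + 9 * z ^ 2 + 27 * z + 3 ≠ 0 ∧
      v.ord (z ^ 3 + 9 * z ^ 2 + 27 * z + 3) = 0 := by
    rw [ee]; exact ord_ofNat_add v 3 hz hq
  refine ⟨?_, ?_, ?_⟩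
  · have h := ord_eq_sub_of_mul_eq v (mul_ne_zero (pow_ne_zero 9 hz0) hs0)
      (mul_ne_zero (pow_ne_zero 3 ha0) (pow_ne_zero 3 hb0)) R1
    rw [v.ord_mul (pow_ne_zero 9 hz0) hs0, v.ord_mul (pow_ne_zero 3 ha0) (pow_ne_zero 3 hb0),
      ord_pow, ord_pow, ord_pow, ha, hb, hs] at h
    push_cast at h
    omega
  · have h := ord_eq_sub_of_mul_eq v (mul_ne_zero (pow_ne_zero 3 hz0) (pow_ne_zero 3 hs0))
      (mul_ne_zero (pow_ne_zero 3 hc0) (pow_ne_zero 3 hd0)) R3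
    rw [v.ord_mul (pow_ne_zero 3 hz0) (pow_ne_zero 3 hs0),
      v.ord_mul (pow_ne_zero 3 hc0) (pow_ne_zero 3 hd0),
      ord_pow, ord_pow, ord_pow, ord_pow, hc, hd, hs] at h
    push_cast at h
    omega
  · have h := ord_eq_sub_of_mul_eq v (mul_ne_zero hz0 hs0)
      (mul_ne_zero (pow_ne_zero 3 hc0) (pow_ne_zero 3 he0)) R9
    rw [v.ord_mul hz0 hs0, v.ord_mul (pow_ne_zero 3 hc0) (pow_ne_zero 3 he0),
      ord_pow, ord_pow, hc, he, hs] at h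
    push_cast at h
    omega

/-- at a zero of `s = z² + 9z + 27`: `v z = 0` and
`(v j₁, v j₃, v j₉) = (-v s, -3 v s, -v s)`. -/
theorem ord_of_quad9 (hz0 : z ≠ 0) (hs0 : z ^ 2 + 9 * z + 27 ≠ 0)
    (R1 : j₁ * (z ^ 9 * (z ^ 2 + 9 * z + 27)) =
      (z + 9) ^ 3 * (z ^ 3 + 243 * z ^ 2 + 2187 * z + 6561) ^ 3)
    (R3 : j₃ * (z ^ 3 * (z ^ 2 + 9 * z + 27) ^ 3) =
      (z + 3) ^ 3 * (z ^ 3 + 9 * z ^ 2 + 27 * z + 243) ^ 3)
    (R9 : j₉ * (z * (z ^ 2 + 9 * z + 27)) =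
      (z + 3) ^ 3 * (z ^ 3 + 9 * z ^ 2 + 27 * z + 3) ^ 3)
    (hs : 0 < v.ord (z ^ 2 + 9 * z + 27)) :
    v.ord z = 0 ∧ v.ord j₁ = -v.ord (z ^ 2 + 9 * z + 27) ∧
      v.ord j₃ = -(3 * v.ord (z ^ 2 + 9 * z + 27)) ∧
      v.ord j₉ = -v.ord (z ^ 2 + 9 * z + 27) := by
  -- `v z = 0`
  have hz : v.ord z = 0 := by
    rcases lt_trichotomy (v.ord z) 0 with h | h | h
    · have := (ord_quad_of_pole9 v hz0 h).2
      omega
    · exact h
    · have := (ord_quad_of_zero9 v hz0 h).2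
      omega
  have hzO : z ∈ v.toValuationSubring := (ord_nonneg_iff v hz0).mp hz.ge
  set u : F := z ^ 2 + 9 * z + 27 with hudef
  have h2 : (2 : F) ∈ v.toValuationSubring := ofNat_mem_place v 2
  have h3 : (3 : F) ∈ v.toValuationSubring := ofNat_mem_place v 3
  have h4 : (4 : F) ∈ v.toValuationSubring := ofNat_mem_place v 4
  have h6 : (6 : F) ∈ v.toValuationSubring := ofNat_mem_place v 6
  have h9 : (9 : F) ∈ v.toValuationSubring := ofNat_mem_place v 9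
  have h243 : (243 : F) ∈ v.toValuationSubring := ofNat_mem_place v 243
  have h477 : (477 : F) ∈ v.toValuationSubring := ofNat_mem_place v 477
  have h2187 : (2187 : F) ∈ v.toValuationSubring := ofNat_mem_place v 2187
  have h2214 : (2214 : F) ∈ v.toValuationSubring := ofNat_mem_place v 2214
  have h6561 : (6561 : F) ∈ v.toValuationSubring := ofNat_mem_place v 6561
  have hz2 : z ^ 2 ∈ v.toValuationSubring := pow_mem hzO 2
  have hz3 : z ^ 3 ∈ v.toValuationSubring := pow_mem hzO 3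
  have h1O : (1 : F) ∈ v.toValuationSubring := one_mem _
  -- `z + 9` is a unit: `(z + 9) (-z) = 27 - u`
  obtain ⟨hA0, hA⟩ := ord_ofNat_add v 27 hs (neg_mem h1O)
  have eA : (z + 9) * (-z) = (27 : F) + u * (-1) := by rw [hudef]; ring
  rw [← eA] at hA0 hA
  obtain ⟨ha, -⟩ := ord_eq_zero_of_mul v (add_mem hzO h9) (neg_mem hzO) hA0 hA
  have ha0 : z + 9 ≠ 0 := left_ne_zero_of_mul hA0
  -- `2z + 9` is a unit: `(2z + 9)² = -(27 - 4u)`
  obtain ⟨hB0, hB⟩ := ord_ofNat_add v 27 hs (neg_mem h4)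
  have eB : (2 * z + 9) * (-(2 * z + 9)) = (27 : F) + u * (-4) := by rw [hudef]; ring
  rw [← eB] at hB0 hB
  have h29O : 2 * z + 9 ∈ v.toValuationSubring := add_mem (mul_mem h2 hzO) h9
  obtain ⟨hb', -⟩ := ord_eq_zero_of_mul v h29O (neg_mem h29O) hB0 hB
  -- the cubic `g₁` is a unit: `g₁ (-(2z + 9)) = 729 - u h₂`
  obtain ⟨hC0, hC⟩ := ord_ofNat_add v 729 hs
    (neg_mem (add_mem (add_mem (mul_mem h2 hz2) (mul_mem h477 hzO)) h2214))
  have eC : (z ^ 3 + 243 * z ^ 2 + 2187 * z + 6561) * (-(2 * z + 9)) =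
      (729 : F) + u * (-(2 * z ^ 2 + 477 * z + 2214)) := by rw [hudef]; ring
  rw [← eC] at hC0 hC
  obtain ⟨hb, -⟩ := ord_eq_zero_of_mul v
    (add_mem (add_mem (add_mem hz3 (mul_mem h243 hz2)) (mul_mem h2187 hzO)) h6561)
    (neg_mem h29O) hC0 hC
  have hb0 : z ^ 3 + 243 * z ^ 2 + 2187 * z + 6561 ≠ 0 := left_ne_zero_of_mul hC0
  -- `z + 3` is a unit: `(z + 3) (-(z + 6)) = 9 - u`
  obtain ⟨hD0, hD⟩ := ord_ofNat_add v 9 hs (neg_mem h1O)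
  have eD : (z + 3) * (-(z + 6)) = (9 : F) + u * (-1) := by rw [hudef]; ring
  rw [← eD] at hD0 hD
  obtain ⟨hc, -⟩ := ord_eq_zero_of_mul v (add_mem hzO h3) (neg_mem (add_mem hzO h6)) hD0 hD
  have hc0 : z + 3 ≠ 0 := left_ne_zero_of_mul hD0
  -- the cubics `g₃ = 243 + u z`, `g₉ = 3 + u z` are units
  have ed : z ^ 3 + 9 * z ^ 2 + 27 * z + 243 = (243 : F) + u * z := by rw [hudef]; ring
  have ee : z ^ 3 + 9 * z ^ 2 + 27 * z + 3 = (3 : F) + u * z := by rw [hudef]; ring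
  obtain ⟨hd0, hd⟩ : z ^ 3 + 9 * z ^ 2 + 27 * z + 243 ≠ 0 ∧
      v.ord (z ^ 3 + 9 * z ^ 2 + 27 * z + 243) = 0 := by
    rw [ed]; exact ord_ofNat_add v 243 hs hzO
  obtain ⟨he0, he⟩ : z ^ 3 + 9 * z ^ 2 + 27 * z + 3 ≠ 0 ∧
      v.ord (z ^ 3 + 9 * z ^ 2 + 27 * z + 3) = 0 := by
    rw [ee]; exact ord_ofNat_add v 3 hs hzO
  refine ⟨hz, ?_, ?_, ?_⟩
  · have h := ord_eq_sub_of_mul_eq v (mul_ne_zero (pow_ne_zero 9 hz0) hs0)
      (mul_ne_zero (pow_ne_zero 3 ha0) (pow_ne_zero 3 hb0)) R1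
    rw [v.ord_mul (pow_ne_zero 9 hz0) hs0, v.ord_mul (pow_ne_zero 3 ha0) (pow_ne_zero 3 hb0),
      ord_pow, ord_pow, ord_pow, ha, hb, hz] at h
    push_cast at h
    omega
  · have h := ord_eq_sub_of_mul_eq v (mul_ne_zero (pow_ne_zero 3 hz0) (pow_ne_zero 3 hs0))
      (mul_ne_zero (pow_ne_zero 3 hc0) (pow_ne_zero 3 hd0)) R3
    rw [v.ord_mul (pow_ne_zero 3 hz0) (pow_ne_zero 3 hs0),
      v.ord_mul (pow_ne_zero 3 hc0) (pow_ne_zero 3 hd0),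
      ord_pow, ord_pow, ord_pow, ord_pow, hc, hd, hz] at h
    push_cast at h
    omega
  · have h := ord_eq_sub_of_mul_eq v (mul_ne_zero hz0 hs0)
      (mul_ne_zero (pow_ne_zero 3 hc0) (pow_ne_zero 3 he0)) R9
    rw [v.ord_mul hz0 hs0, v.ord_mul (pow_ne_zero 3 hc0) (pow_ne_zero 3 he0),
      ord_pow, ord_pow, hc, he, hz] at h
    push_cast at h
    omega

/-- away from the cusps of the `z`-line, `j₁` is regular. -/
theorem ord_nonneg_of_unit9 (hz0 : z ≠ 0) (hs0 : z ^ 2 + 9 * z + 27 ≠ 0)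
    (R1 : j₁ * (z ^ 9 * (z ^ 2 + 9 * z + 27)) =
      (z + 9) ^ 3 * (z ^ 3 + 243 * z ^ 2 + 2187 * z + 6561) ^ 3)
    (hz : v.ord z = 0) (hs : v.ord (z ^ 2 + 9 * z + 27) = 0) : 0 ≤ v.ord j₁ := by
  rcases eq_or_ne j₁ 0 with rfl | hj1
  · rw [v.ord_zero]
  have hzO : z ∈ v.toValuationSubring := (ord_nonneg_iff v hz0).mp hz.ge
  have h9 : (9 : F) ∈ v.toValuationSubring := ofNat_mem_place v 9
  have h243 : (243 : F) ∈ v.toValuationSubring := ofNat_mem_place v 243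
  have h2187 : (2187 : F) ∈ v.toValuationSubring := ofNat_mem_place v 2187
  have h6561 : (6561 : F) ∈ v.toValuationSubring := ofNat_mem_place v 6561
  have hp : (z + 9) ^ 3 * (z ^ 3 + 243 * z ^ 2 + 2187 * z + 6561) ^ 3 ∈
      v.toValuationSubring :=
    mul_mem (pow_mem (add_mem hzO h9) 3)
      (pow_mem (add_mem (add_mem (add_mem (pow_mem hzO 3) (mul_mem h243 (pow_mem hzO 2)))
        (mul_mem h2187 hzO)) h6561) 3)
  have hd0 : z ^ 9 * (z ^ 2 + 9 * z + 27) ≠ 0 := mul_ne_zero (pow_ne_zero 9 hz0) hs0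
  have hp0 : (z + 9) ^ 3 * (z ^ 3 + 243 * z ^ 2 + 2187 * z + 6561) ^ 3 ≠ 0 := by
    rw [← R1]
    exact mul_ne_zero hj1 hd0
  have h := ord_eq_sub_of_mul_eq v hd0 hp0 R1
  rw [v.ord_mul (pow_ne_zero 9 hz0) hs0, ord_pow, hz, hs] at h
  have := (ord_nonneg_iff v hp0).mpr hp
  omega

variable (hz0 : z ≠ 0) (hs0 : z ^ 2 + 9 * z + 27 ≠ 0)
  (R1 : j₁ * (z ^ 9 * (z ^ 2 + 9 * z + 27)) =
    (z + 9) ^ 3 * (z ^ 3 + 243 * z ^ 2 + 2187 * z + 6561) ^ 3)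
  (R3 : j₃ * (z ^ 3 * (z ^ 2 + 9 * z + 27) ^ 3) =
    (z + 3) ^ 3 * (z ^ 3 + 9 * z ^ 2 + 27 * z + 243) ^ 3)
  (R9 : j₉ * (z * (z ^ 2 + 9 * z + 27)) =
    (z + 3) ^ 3 * (z ^ 3 + 9 * z ^ 2 + 27 * z + 3) ^ 3)

include hz0 hs0 R1 R3 R9

/-- at a pole of `j₁` which is neither a zero nor a pole of `z` (the two cusps of width one
other than `∞`): pattern `(e, 3e, e)`. -/
theorem ord_of_side9 (hz : v.ord z = 0) (hj : v.ord j₁ < 0) :
    v.ord j₃ = 3 * v.ord j₁ ∧ 3 * v.ord j₉ = v.ord j₃ := by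
  have hzO : z ∈ v.toValuationSubring := (ord_nonneg_iff v hz0).mp hz.ge
  have h9 : (9 : F) ∈ v.toValuationSubring := ofNat_mem_place v 9
  have h27 : (27 : F) ∈ v.toValuationSubring := ofNat_mem_place v 27
  have hsO : z ^ 2 + 9 * z + 27 ∈ v.toValuationSubring :=
    add_mem (add_mem (pow_mem hzO 2) (mul_mem h9 hzO)) h27
  have h0 : 0 ≤ v.ord (z ^ 2 + 9 * z + 27) := (ord_nonneg_iff v hs0).mpr hsO
  rcases h0.eq_or_lt with h | h
  · have := ord_nonneg_of_unit9 v hz0 hs0 R1 hz h.symm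
    omega
  · obtain ⟨-, h1, h3, h9'⟩ := ord_of_quad9 v hz0 hs0 R1 R3 R9 h
    constructor
    · rw [h1, h3]; ring
    · rw [h3, h9']; ring

/-- where `j₁` is regular, `z` is a unit. -/
theorem ord_eq_zero_of_nonneg9 (hj : 0 ≤ v.ord j₁) : v.ord z = 0 := by
  rcases lt_trichotomy (v.ord z) 0 with h | h | h
  · have := (ord_of_pole9 v hz0 R1 R3 R9 h).1
    omega
  · exact h
  · have := (ord_of_zero9 v hz0 R1 R3 R9 h).1
    omega

/-- where `j₁` is regular, `z² + 9z + 27` is a unit too. -/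
theorem ord_quad_eq_zero_of_nonneg9 (hj : 0 ≤ v.ord j₁) : v.ord (z ^ 2 + 9 * z + 27) = 0 := by
  have hz := ord_eq_zero_of_nonneg9 v hz0 hs0 R1 R3 R9 hj
  have hzO : z ∈ v.toValuationSubring := (ord_nonneg_iff v hz0).mp hz.ge
  have h9 : (9 : F) ∈ v.toValuationSubring := ofNat_mem_place v 9
  have h27 : (27 : F) ∈ v.toValuationSubring := ofNat_mem_place v 27
  have hsO : z ^ 2 + 9 * z + 27 ∈ v.toValuationSubring :=
    add_mem (add_mem (pow_mem hzO 2) (mul_mem h9 hzO)) h27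
  have h0 : 0 ≤ v.ord (z ^ 2 + 9 * z + 27) := (ord_nonneg_iff v hs0).mpr hsO
  rcases h0.eq_or_lt with h | h
  · exact h.symm
  · have := (ord_of_quad9 v hz0 hs0 R1 R3 R9 h).2.1
    omega

/-- the three cusp types are told apart by the pattern of `(v j₁, v j₃, v j₉)`: summary at a
pole of `j₁`. -/
theorem ord_pattern9 (hj : v.ord j₁ < 0) :
    (v.ord z < 0 ∧ v.ord j₁ = v.ord z ∧ v.ord j₃ = 3 * v.ord j₁ ∧ v.ord j₉ = 3 * v.ord j₃) ∨
    (0 < v.ord z ∧ v.ord j₉ = -v.ord z ∧ v.ord j₃ = 3 * v.ord j₉ ∧ v.ord j₁ = 3 * v.ord j₃) ∨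
    (v.ord z = 0 ∧ v.ord j₃ = 3 * v.ord j₁ ∧ 3 * v.ord j₉ = v.ord j₃) := by
  rcases lt_trichotomy (v.ord z) 0 with h | h | h
  · obtain ⟨h1, h3, h9⟩ := ord_of_pole9 v hz0 R1 R3 R9 h
    exact Or.inl ⟨h, h1, by omega, by omega⟩
  · exact Or.inr (Or.inr ⟨h, ord_of_side9 v hz0 hs0 R1 R3 R9 h hj⟩)
  · obtain ⟨h1, h3, h9⟩ := ord_of_zero9 v hz0 R1 R3 R9 h
    exact Or.inr (Or.inl ⟨h, h9, by omega, by omega⟩)

end JRel9

end Fermat.Agent.S34x.Cusp
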