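import Fermat.Agent.S34x.Cusp.Ratio
import Fermat.Agent.S34x.Cusp.EltY4
import Fermat.Agent.S34x.Cusp.JRel9

/-!
# P-S34 (vi)(A), part 3': the cusp analysis of `y = t² / u`, `t = z₉(τ)`, `u = z₉(2τ)`

`k` algebraically closed of characteristic zero, `N` a level with `18 ∣ N`.  Let `t u : Fk k N`
satisfy the `j`-relations of the shifted Hauptmodul `z₉ = y₉ - 3` with `(j(τ), j(3τ), j(9τ))`
resp. `(j(2τ), j(6τ), j(18τ))`.  Then at every place `v` of `Fk k N`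

  `v(u) = 2 v(t)`  or  `2 v(u) = v(t)`

(`ord_eq_of_jRel9`); in particular `t` and `u` have the same zeros and the same poles.
-/

set_option autoImplicit false

noncomputable section

namespace Fermat.Agent.S34x.Cusp

open Polynomial ModularCurve IntermediateField AlgebraicCurve
open Fermat.Agent.S28 Fermat.Agent.S28.Tower
open Fermat.Agent.Gateway.GoodRed Fermat.Agent.Gateway.GoodRed.ConjFamily

section Abstract9

variable {k : Type} [Field k] [IsAlgClosed k] [CharZero k] {N : ℕ} [NeZero N]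

/-- **Theorem A at level 9** (`q = 2`). -/
theorem ord_eq_of_jRel9 (hNk : (N : k) ≠ 0)
    (h2N : 2 ∣ N) (h3N : 3 ∣ N) (h6N : 6 ∣ N) (h9N : 9 ∣ N) (h18N : 18 ∣ N)
    {t u : Fk k N} (ht0 : t ≠ 0) (hts : t ^ 2 + 9 * t + 27 ≠ 0)
    (hu0 : u ≠ 0) (hus : u ^ 2 + 9 * u + 27 ≠ 0)
    (T1 : jdF 1 (one_dvd N) * (t ^ 9 * (t ^ 2 + 9 * t + 27)) =
      (t + 9) ^ 3 * (t ^ 3 + 243 * t ^ 2 + 2187 * t + 6561) ^ 3)
    (T3 : jdF 3 h3N * (t ^ 3 * (t ^ 2 + 9 * t + 27) ^ 3) =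
      (t + 3) ^ 3 * (t ^ 3 + 9 * t ^ 2 + 27 * t + 243) ^ 3)
    (T9 : jdF 9 h9N * (t * (t ^ 2 + 9 * t + 27)) =
      (t + 3) ^ 3 * (t ^ 3 + 9 * t ^ 2 + 27 * t + 3) ^ 3)
    (U1 : jdF 2 h2N * (u ^ 9 * (u ^ 2 + 9 * u + 27)) =
      (u + 9) ^ 3 * (u ^ 3 + 243 * u ^ 2 + 2187 * u + 6561) ^ 3)
    (U3 : jdF 6 h6N * (u ^ 3 * (u ^ 2 + 9 * u + 27) ^ 3) =
      (u + 3) ^ 3 * (u ^ 3 + 9 * u ^ 2 + 27 * u + 243) ^ 3)
    (U9 : jdF 18 h18N * (u * (u ^ 2 + 9 * u + 27)) =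
      (u + 3) ^ 3 * (u ^ 3 + 9 * u ^ 2 + 27 * u + 3) ^ 3)
    (v : Place k (Fk k N)) :
    v.ord u = 2 * v.ord t ∨ 2 * v.ord u = v.ord t := by
  have h1N : (1 : ℕ) ∣ N := one_dvd N
  by_cases hcusp : v.ord (jFk k N) < 0
  · -- a cusp
    have h13N : 1 * 3 ∣ N := h3N
    have h12N : 1 * 2 ∣ N := h2N
    have h132N : 1 * 3 * 2 ∣ N := h6N
    have h33N : 3 * 3 ∣ N := h9N
    have h32N : 3 * 2 ∣ N := h6N
    have h332N : 3 * 3 * 2 ∣ N := h18N
    have h92N : 9 * 2 ∣ N := h18N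
    have e3 : jdF (k := k) (1 * 3) h13N = jdF 3 h3N := jdF_congr (by norm_num) _ _
    have e2 : jdF (k := k) (1 * 2) h12N = jdF 2 h2N := jdF_congr (by norm_num) _ _
    have e6 : jdF (k := k) (1 * 3 * 2) h132N = jdF 6 h6N := jdF_congr (by norm_num) _ _
    have e9 : jdF (k := k) (3 * 3) h33N = jdF 9 h9N := jdF_congr (by norm_num) _ _
    have e6' : jdF (k := k) (3 * 2) h32N = jdF 6 h6N := jdF_congr (by norm_num) _ _
    have e18 : jdF (k := k) (3 * 3 * 2) h332N = jdF 18 h18N := jdF_congr (by norm_num) _ _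
    have e18' : jdF (k := k) (9 * 2) h92N = jdF 18 h18N := jdF_congr (by norm_num) _ _
    have hJ1 : v.ord (jdF 1 h1N) < 0 := ord_jdF_neg hNk v hcusp h1N
    have hJ2 : v.ord (jdF 2 h2N) < 0 := ord_jdF_neg hNk v hcusp h2N
    have hJ3 : v.ord (jdF 3 h3N) < 0 := ord_jdF_neg hNk v hcusp h3N
    have hJ6 : v.ord (jdF 6 h6N) < 0 := ord_jdF_neg hNk v hcusp h6N
    have hJ9 : v.ord (jdF 9 h9N) < 0 := ord_jdF_neg hNk v hcusp h9N
    have hJ18 : v.ord (jdF 18 h18N) < 0 := ord_jdF_neg hNk v hcusp h18N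
    -- the matching identities
    have hmul1 := ord_mul_eq hNk v hcusp Nat.prime_three Nat.prime_two (by norm_num)
      h132N h13N h12N h1N
    rw [e3, e2, e6] at hmul1
    have hmul3 := ord_mul_eq hNk v hcusp Nat.prime_three Nat.prime_two (by norm_num)
      h332N h33N h32N h3N
    rw [e9, e6', e18] at hmul3
    -- the steps
    have hstep1 := ord_jdF_step hNk v hcusp Nat.prime_two h12N h1N
    rw [e2] at hstep1
    have hstep9 := ord_jdF_step hNk v hcusp Nat.prime_two h92N h9N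
    rw [e18'] at hstep9
    have p13 : 0 < v.ord (jdF 1 h1N) * v.ord (jdF 6 h6N) := mul_pos_of_neg_of_neg hJ1 hJ6
    have p31 : 0 < v.ord (jdF 3 h3N) * v.ord (jdF 2 h2N) := mul_pos_of_neg_of_neg hJ3 hJ2
    have p39 : 0 < v.ord (jdF 3 h3N) * v.ord (jdF 18 h18N) := mul_pos_of_neg_of_neg hJ3 hJ18
    have p93 : 0 < v.ord (jdF 9 h9N) * v.ord (jdF 6 h6N) := mul_pos_of_neg_of_neg hJ9 hJ6
    rcases ord_pattern9 v ht0 hts T1 T3 T9 hJ1 with ⟨htn, ht1, ht3, ht9⟩ | ⟨htp, ht9, ht3, ht1⟩ |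
      ⟨htz, ht3, ht9⟩
    · -- `t` has a pole
      rcases ord_pattern9 v hu0 hus U1 U3 U9 hJ2 with ⟨hun, hu1, hu3, hu9⟩ |
        ⟨hup, hu9, hu3, hu1⟩ | ⟨huz, hu3, hu9⟩
      · rw [← ht1, ← hu1]
        exact hstep1
      · exfalso
        -- b₃ a₁ = a₃ b₁, a₃ = 3 a₁, b₁ = 3 b₃
        rw [ht3, hu1] at hmul1
        nlinarith
      · exfalso
        -- b₉ a₃ = a₉ b₃, a₉ = 3 a₃, b₃ = 3 b₉
        rw [ht9, ← hu9] at hmul3
        nlinarith
    · -- `t` has a zero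
      rcases ord_pattern9 v hu0 hus U1 U3 U9 hJ2 with ⟨hun, hu1, hu3, hu9⟩ |
        ⟨hup, hu9, hu3, hu1⟩ | ⟨huz, hu3, hu9⟩
      · exfalso
        -- b₃ a₁ = a₃ b₁, a₁ = 3 a₃, b₃ = 3 b₁
        rw [ht1, hu3] at hmul1
        nlinarith
      · have e1 : v.ord t = -v.ord (jdF 9 h9N) := by omega
        have e2 : v.ord u = -v.ord (jdF 18 h18N) := by omega
        rw [e1, e2]
        rcases hstep9 with h | h
        · left; rw [h]; ring
        · right; rw [← h]; ring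
      · exfalso
        rw [ht1, hu3] at hmul1
        nlinarith
    · -- `t` is a unit (side cusp)
      rcases ord_pattern9 v hu0 hus U1 U3 U9 hJ2 with ⟨hun, hu1, hu3, hu9⟩ |
        ⟨hup, hu9, hu3, hu1⟩ | ⟨huz, hu3, hu9⟩
      · exfalso
        -- b₉ a₃ = a₉ b₃, a₃ = 3 a₉, b₉ = 3 b₃
        rw [← ht9, hu9] at hmul3
        nlinarith
      · exfalso
        -- b₃ a₁ = a₃ b₁, a₃ = 3 a₁, b₁ = 3 b₃
        rw [ht3, hu1] at hmul1
        nlinarith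
      · left
        rw [htz, huz]; simp
  · -- not a cusp: `t`, `u` are units
    rw [not_lt] at hcusp
    have h12N : 1 * 2 ∣ N := h2N
    have e2 : jdF (k := k) (1 * 2) h12N = jdF 2 h2N := jdF_congr (by norm_num) _ _
    have hJ1 : 0 ≤ v.ord (jdF 1 h1N) := by rw [jdF_one]; exact hcusp
    have hJ2 : 0 ≤ v.ord (jdF 2 h2N) := by
      have := ord_jdF_nonneg_step hNk v Nat.prime_two h12N h1N hJ1
      rwa [e2] at this
    have ht := ord_eq_zero_of_nonneg9 v ht0 hts T1 T3 T9 hJ1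
    have hu := ord_eq_zero_of_nonneg9 v hu0 hus U1 U3 U9 hJ2
    left
    rw [ht, hu]; simp

end Abstract9

end Fermat.Agent.S34x.Cusp
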