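import Fermat.Agent.Gateway.GoodRed.ConjFamily.Values
import Fermat.Agent.Gateway.GoodRed.ConjFamily.Places

/-!
# P-S34 (vi)(A), part 1: ratios of the pole orders of `j(q^d)` at the cusps

`k` algebraically closed, `(N : k) ≠ 0`.  For a cusp embedding `τ : Emb k N` put
`c_d := -ord (τ (j(q^d)))` (`d ∣ N`).  Then

* `order_emb_jdF_step`: for a prime `r` with `d * r ∣ N`: `c_{dr} = r c_d` or `r c_{dr} = c_d`;
* `order_emb_mul_eq`: for distinct primes `r, q` with `d * r * q ∣ N`: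
  `c_{drq} * c_d = c_{dr} * c_{dq}` (the `r`-type of a cusp does not depend on the `q`-level);
* the same statements for the places of `Fk k N` over `j = ∞` (`ord_jdF_step`, `ord_mul_eq`), and
  `ord_jdF_neg_iff`: all the `j(q^d)` have their poles exactly at the poles of `j`.
-/

set_option autoImplicit false

noncomputable section

namespace Fermat.Agent.S34x.Cusp

open Polynomial ModularCurve IntermediateField AlgebraicCurve
open Fermat.Agent.S28 Fermat.Agent.S28.Tower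
open Fermat.Agent.Gateway.GoodRed Fermat.Agent.Gateway.GoodRed.ConjFamily

section Order

variable {R : Type*} [CommRing R] [Nontrivial R]

theorem order_jS {c : ℕ} (hc : c ≠ 0) (ξ : Rˣ) : (jS R ξ c).order = -(c : ℤ) :=
  (order_eq_of_coeff (f := jS R ξ c) (n := -(c : ℤ))
    (by rw [coeff_jS_neg hc ξ]; exact Units.ne_zero _)
    (fun m hm => coeff_jS_of_lt hc ξ hm)).1

end Order

section Step

variable {k : Type} [Field k] [IsAlgClosed k] {N : ℕ} [NeZero N]

/-- one step of (CF2), for an arbitrary prime `r` with `d * r ∣ N`. -/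
theorem emb_jdF_step (hNk : (N : k) ≠ 0) (τ : Emb k N) {d r : ℕ} (hr : r.Prime)
    (hdrN : d * r ∣ N) (hdN : d ∣ N) {ξ : kˣ} {s t : ℕ} (hst : s * t = d) (hξt : ξ ^ t = 1)
    (hτ : τ.1 (jdF d hdN) = jS k ξ (s * (N / t))) :
    (∃ ξ' : kˣ, τ.1 (jdF (d * r) hdrN) = jS k ξ' (r * (s * (N / t)))) ∨
      (∃ (ξ' : kˣ) (c' : ℕ), c' ≠ 0 ∧ r * c' = s * (N / t) ∧
        τ.1 (jdF (d * r) hdrN) = jS k ξ' c') := by
  have hN : N ≠ 0 := NeZero.ne N
  have hr0 : r ≠ 0 := hr.ne_zero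
  have hd0 : d ≠ 0 := ne_zero_of_dvd_N hdN
  have hrN : r ∣ N := (Dvd.intro_left d rfl).trans hdrN
  obtain ⟨ζ, hζ⟩ := exists_roots hNk r hr hrN
  have hA : IsModEq (gΦ r) r k := (hΦ_general hNk r hr hrN).2.2.1
  obtain ⟨η, hη⟩ := exists_unit_pow_eq ξ hr.pos
  -- the relation in `Fk`
  have hrel : Tower.Rel (gΦ r) (jdF (d * r) hdrN) (jdF (k := k) d hdN) := by
    apply Rel.of_map_injective (algebraMap (Fk k N) (LaurentSeries k))
      (algebraMap (Fk k N) (LaurentSeries k)).injective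
    show Tower.Rel (gΦ r) (jS k 1 (d * r)) (jS k 1 d)
    exact rel_fwd_K hA hr0 hζ hd0
  have hrel' := hrel.map τ.1
  rw [hτ] at hrel'
  -- arithmetic
  obtain ⟨e, he⟩ := hdrN
  have hs0 : s ≠ 0 := fun h => hd0 (by rw [← hst, h, zero_mul])
  have ht0 : t ≠ 0 := fun h => hd0 (by rw [← hst, h, mul_zero])
  have he0 : e ≠ 0 := fun h => hN (by rw [he, h, mul_zero])
  have e1 : N / t = s * r * e := by
    apply Nat.div_eq_of_eq_mul_right (Nat.pos_of_ne_zero ht0)
    rw [he, ← hst]; ring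
  set m := s * (s * e) with hm
  have hm0 : m ≠ 0 := Nat.mul_ne_zero hs0 (Nat.mul_ne_zero hs0 he0)
  have e3 : s * (N / t) = m * r := by rw [e1, hm]; ring
  unfold Tower.Rel at hrel'
  rw [e3, ← hη] at hrel'
  rcases eq_of_isRoot_polyAt hA hr0 hζ η hm0 (RingHom.id _) _ hrel' with h | ⟨i, -, h⟩
  · left
    refine ⟨η ^ (r ^ 2), ?_⟩
    rw [h, RingHom.id_apply, e3]
    congr 1
    ring
  · right
    refine ⟨ζ ^ i * η, m, hm0, ?_, ?_⟩
    · rw [e3]; ring
    · rw [h, RingHom.id_apply]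

/-- **pole orders one prime step apart.** -/
theorem order_emb_jdF_step (hNk : (N : k) ≠ 0) (τ : Emb k N) {d r : ℕ} (hr : r.Prime)
    (hdrN : d * r ∣ N) (hdN : d ∣ N) :
    (τ.1 (jdF (d * r) hdrN)).order = r * (τ.1 (jdF d hdN)).order ∨
      r * (τ.1 (jdF (d * r) hdrN)).order = (τ.1 (jdF d hdN)).order := by
  obtain ⟨ξ, s, t, hst, hξt, hτ⟩ := emb_jdF hNk τ d hdN
  have hd0 : d ≠ 0 := ne_zero_of_dvd_N hdN
  have hs0 : s ≠ 0 := fun h => hd0 (by rw [← hst, h, zero_mul])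
  have ht0 : t ≠ 0 := fun h => hd0 (by rw [← hst, h, mul_zero])
  have hc0 : s * (N / t) ≠ 0 := by
    have htN : t ∣ N := (Dvd.intro_left s hst).trans hdN
    obtain ⟨e, he⟩ := htN
    refine Nat.mul_ne_zero hs0 ?_
    rw [he, Nat.mul_div_cancel_left e (Nat.pos_of_ne_zero ht0)]
    rintro rfl
    exact NeZero.ne N (by rw [he, mul_zero])
  rcases emb_jdF_step hNk τ hr hdrN hdN hst hξt hτ with ⟨ξ', h⟩ | ⟨ξ', c', hc', hrc, h⟩
  · left
    rw [h, hτ, order_jS (Nat.mul_ne_zero hr.ne_zero hc0), order_jS hc0]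
    push_cast
    ring
  · right
    rw [h, hτ, order_jS hc', order_jS hc0, ← hrc]
    push_cast
    ring

theorem order_emb_jdF_neg (hNk : (N : k) ≠ 0) (τ : Emb k N) {d : ℕ} (hdN : d ∣ N) :
    (τ.1 (jdF d hdN)).order < 0 := by
  obtain ⟨ξ, c, -, hc, hτ⟩ := emb_jdF' hNk τ d hdN
  rw [hτ, order_jS hc]
  have : (0 : ℤ) < c := by exact_mod_cast Nat.pos_of_ne_zero hc
  omega

end Step

section Arith

/-- unique factorisation, in the form needed: two primes `r ≠ q`, positive integers. -/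
theorem mul_eq_mul_of_steps {r q : ℕ} (hr : r.Prime) (hq : q.Prime) (hrq : r ≠ q)
    {c1 cr cq crq : ℤ} (h1 : c1 < 0) (hcr : cr < 0) (hcq : cq < 0) (hcrq : crq < 0)
    (s1 : cr = r * c1 ∨ r * cr = c1) (s2 : cq = q * c1 ∨ q * cq = c1)
    (s3 : crq = q * cr ∨ q * crq = cr) (s4 : crq = r * cq ∨ r * crq = cq) :
    crq * c1 = cr * cq := by
  have hr2 : (2 : ℤ) ≤ r := by exact_mod_cast hr.two_le
  have hq2 : (2 : ℤ) ≤ q := by exact_mod_cast hq.two_le
  have hrq' : (r : ℤ) ≠ q := by exact_mod_cast hrq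
  -- from (1),(4): B = A, B = r² A or r² B = A
  have hA : 0 < cr * cq := mul_pos_of_neg_of_neg hcr hcq
  have hB : 0 < crq * c1 := mul_pos_of_neg_of_neg hcrq h1
  have hR : crq * c1 = cr * cq ∨ crq * c1 * (r : ℤ) ^ 2 = cr * cq ∨
      crq * c1 = cr * cq * (r : ℤ) ^ 2 := by
    rcases s1 with s1 | s1 <;> rcases s4 with s4 | s4
    · left; rw [s1, s4]; ring
    · right; left
      rw [s1, ← s4]; ring
    · right; right
      rw [s4, ← s1]; ring
    · left
      have : (r : ℤ) * (crq * c1) = r * (cr * cq) := by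
        rw [← s1, ← s4]; ring
      have hr0 : (r : ℤ) ≠ 0 := by positivity
      exact mul_left_cancel₀ hr0 this
  have hQ : crq * c1 = cr * cq ∨ crq * c1 * (q : ℤ) ^ 2 = cr * cq ∨
      crq * c1 = cr * cq * (q : ℤ) ^ 2 := by
    rcases s2 with s2 | s2 <;> rcases s3 with s3 | s3
    · left; rw [s2, s3]; ring
    · right; left
      rw [s2, ← s3]; ring
    · right; right
      rw [s3, ← s2]; ring
    · left
      have : (q : ℤ) * (crq * c1) = q * (cr * cq) := by
        rw [← s2, ← s3]; ring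
      have hq0 : (q : ℤ) ≠ 0 := by positivity
      exact mul_left_cancel₀ hq0 this
  set A := cr * cq with hAdef
  set B := crq * c1 with hBdef
  have hsq : (r : ℤ) ^ 2 ≠ (q : ℤ) ^ 2 := by
    intro h
    have := (sq_eq_sq₀ (by positivity) (by positivity)).mp h
    exact hrq' this
  have hr4 : (4 : ℤ) ≤ (r : ℤ) ^ 2 := by nlinarith
  have hq4 : (4 : ℤ) ≤ (q : ℤ) ^ 2 := by nlinarith
  rcases hR with hR | hR | hR
  · exact hR
  · rcases hQ with hQ | hQ | hQ
    · exact hQ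
    · exfalso
      -- B r² = A = B q²
      have : B * (r : ℤ) ^ 2 = B * (q : ℤ) ^ 2 := by rw [hR, hQ]
      exact hsq (mul_left_cancel₀ hB.ne' this)
    · exfalso
      -- B r² = A, B = A q²  ⇒ A q² r² = A
      have : A * ((q : ℤ) ^ 2 * (r : ℤ) ^ 2) = A * 1 := by
        rw [mul_one, ← mul_assoc, ← hQ, hR]
      have h1 := mul_left_cancel₀ hA.ne' this
      nlinarith
  · rcases hQ with hQ | hQ | hQ
    · exact hQ
    · exfalso
      -- B = A r², B q² = A ⇒ A r² q² = A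
      have : A * ((r : ℤ) ^ 2 * (q : ℤ) ^ 2) = A * 1 := by
        rw [mul_one, ← mul_assoc, ← hR, hQ]
      have h1 := mul_left_cancel₀ hA.ne' this
      nlinarith
    · exfalso
      have : A * (r : ℤ) ^ 2 = A * (q : ℤ) ^ 2 := by rw [← hR, ← hQ]
      exact hsq (mul_left_cancel₀ hA.ne' this)

end Arith

section Match

variable {k : Type} [Field k] [IsAlgClosed k] {N : ℕ} [NeZero N]

/-- **the `r`-type of a cusp is independent of the `q`-level** (`r ≠ q` primes). -/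
theorem order_emb_mul_eq (hNk : (N : k) ≠ 0) (τ : Emb k N) {d r q : ℕ} (hr : r.Prime)
    (hq : q.Prime) (hrq : r ≠ q) (hdrqN : d * r * q ∣ N) (hdrN : d * r ∣ N) (hdqN : d * q ∣ N)
    (hdN : d ∣ N) :
    (τ.1 (jdF (d * r * q) hdrqN)).order * (τ.1 (jdF d hdN)).order =
      (τ.1 (jdF (d * r) hdrN)).order * (τ.1 (jdF (d * q) hdqN)).order := by
  have hdqrN : d * q * r ∣ N := by rwa [mul_right_comm]
  have e : jdF (k := k) (d * q * r) hdqrN = jdF (d * r * q) hdrqN := by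
    apply Subtype.ext
    rw [coe_jdF, coe_jdF, mul_right_comm]
  have s1 := order_emb_jdF_step hNk τ hr hdrN hdN
  have s2 := order_emb_jdF_step hNk τ hq hdqN hdN
  have s3 := order_emb_jdF_step hNk τ hq hdrqN hdrN
  have s4 := order_emb_jdF_step hNk τ hr hdqrN hdqN
  rw [e] at s4
  exact mul_eq_mul_of_steps hr hq hrq (order_emb_jdF_neg hNk τ hdN)
    (order_emb_jdF_neg hNk τ hdrN) (order_emb_jdF_neg hNk τ hdqN)
    (order_emb_jdF_neg hNk τ hdrqN) s1 s2 s3 s4

end Match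

/-! ### Places -/

section Places

variable {k : Type} [Field k] [IsAlgClosed k] {N : ℕ} [NeZero N]

/-- every place of `Fk k N` over `j = ∞` is induced by a cusp embedding. -/
theorem exists_emb_of_ord_neg (hNk : (N : k) ≠ 0) (v : Place k (Fk k N))
    (hv : v.ord (jFk k N) < 0) :
    ∃ (τ : Emb k N) (c : ℤ), 0 < c ∧ ∀ f : Fk k N, (τ.1 f).order = c * v.ord f := by
  obtain ⟨ζ, hζ⟩ := exists_primitiveRoot_unit (k := k) N hNk
  letI := fintypeEmb hNk
  letI : DecidableEq (Emb k N) := Classical.decEq _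
  obtain ⟨pl, hpl⟩ := exists_polePlaces_Fk hNk ζ hζ
  obtain ⟨τ, rfl⟩ := (hpl.1 v).mp hv
  obtain ⟨c, hc⟩ : ∃ c : ℕ, ∀ f : Fk k N, (τ.1 f).order = (c : ℤ) * (pl τ).ord f :=
    ⟨_, fun f => hpl.2.2.2.2 τ f⟩
  refine ⟨τ, c, ?_, hc⟩
  have h1 := hc (jFk k N)
  rw [emb_jFk, order_qExpand_jqModC] at h1
  have hN : (0 : ℤ) < N := by exact_mod_cast Nat.pos_of_ne_zero (NeZero.ne N)
  rcases Nat.eq_zero_or_pos c with rfl | hcpos
  · rw [Nat.cast_zero, zero_mul] at h1
    omega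
  · exact_mod_cast hcpos

theorem ord_jdF_neg (hNk : (N : k) ≠ 0) (v : Place k (Fk k N)) (hv : v.ord (jFk k N) < 0)
    {d : ℕ} (hdN : d ∣ N) : v.ord (jdF d hdN) < 0 := by
  obtain ⟨τ, c, hc, hτ⟩ := exists_emb_of_ord_neg hNk v hv
  have h := order_emb_jdF_neg hNk τ hdN
  rw [hτ] at h
  by_contra hcon
  rw [not_lt] at hcon
  nlinarith

/-- **pole orders one prime step apart**, at a place over `j = ∞`. -/
theorem ord_jdF_step (hNk : (N : k) ≠ 0) (v : Place k (Fk k N)) (hv : v.ord (jFk k N) < 0)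
    {d r : ℕ} (hr : r.Prime) (hdrN : d * r ∣ N) (hdN : d ∣ N) :
    v.ord (jdF (d * r) hdrN) = r * v.ord (jdF d hdN) ∨
      r * v.ord (jdF (d * r) hdrN) = v.ord (jdF d hdN) := by
  obtain ⟨τ, c, hc, hτ⟩ := exists_emb_of_ord_neg hNk v hv
  have hc0 : c ≠ 0 := hc.ne'
  rcases order_emb_jdF_step hNk τ hr hdrN hdN with h | h
  · left
    rw [hτ, hτ] at h
    apply mul_left_cancel₀ hc0
    rw [h]; ring
  · right
    rw [hτ, hτ] at h
    apply mul_left_cancel₀ hc0
    rw [← h]; ring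

/-- **the `r`-type of a cusp is independent of the `q`-level**, for places. -/
theorem ord_mul_eq (hNk : (N : k) ≠ 0) (v : Place k (Fk k N)) (hv : v.ord (jFk k N) < 0)
    {d r q : ℕ} (hr : r.Prime) (hq : q.Prime) (hrq : r ≠ q) (hdrqN : d * r * q ∣ N)
    (hdrN : d * r ∣ N) (hdqN : d * q ∣ N) (hdN : d ∣ N) :
    v.ord (jdF (d * r * q) hdrqN) * v.ord (jdF d hdN) =
      v.ord (jdF (d * r) hdrN) * v.ord (jdF (d * q) hdqN) := by
  obtain ⟨τ, c, hc, hτ⟩ := exists_emb_of_ord_neg hNk v hv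
  have h := order_emb_mul_eq hNk τ hr hq hrq hdrqN hdrN hdqN hdN
  rw [hτ, hτ, hτ, hτ] at h
  have hc2 : c * c ≠ 0 := mul_ne_zero hc.ne' hc.ne'
  apply mul_left_cancel₀ hc2
  linear_combination h

end Places

/-! ### Integrality: no new poles -/

section Integral

variable {K F : Type*} [Field K] [Field F] [Algebra K F] (v : Place K F)

/-- a root of a monic integral relation over an element regular at `v` is regular at `v`. -/
theorem ord_nonneg_of_rel {Φ : ℤ[X][X]} (hΦ : Φ.Monic) {a b : F} (h : Tower.Rel Φ a b)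
    (hb : 0 ≤ v.ord b) : 0 ≤ v.ord a := by
  rcases eq_or_ne a 0 with rfl | ha0
  · rw [v.ord_zero]
  have hbO : b ∈ v.toValuationSubring := by
    rcases eq_or_ne b 0 with rfl | hb0
    · exact zero_mem _
    · exact (Fermat.Agent.S24.ZP.ord_nonneg_iff v hb0).mp hb
  rw [Fermat.Agent.S24.ZP.ord_nonneg_iff v ha0]
  set O := v.toValuationSubring with hO
  let b' : O := ⟨b, hbO⟩
  have hmap : (polyAt Φ b').map O.subtype = polyAt Φ b := polyAt_map Φ O.subtype b'
  have hint : IsIntegral O a := by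
    refine ⟨polyAt Φ b', polyAt_monic hΦ b', ?_⟩
    have h1 : (polyAt Φ b).IsRoot a := h
    rw [← hmap, IsRoot.def, eval_map] at h1
    exact h1
  obtain ⟨y, hy⟩ := IsIntegrallyClosed.isIntegral_iff.mp hint
  rw [← hy]
  exact y.2

end Integral

section IntegralFk

variable {k : Type} [Field k] [IsAlgClosed k] {N : ℕ} [NeZero N]

/-- `j(q^(d r))` is regular wherever `j(q^d)` is. -/
theorem ord_jdF_nonneg_step (hNk : (N : k) ≠ 0) (v : Place k (Fk k N)) {d r : ℕ} (hr : r.Prime)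
    (hdrN : d * r ∣ N) (hdN : d ∣ N) (h : 0 ≤ v.ord (jdF d hdN)) :
    0 ≤ v.ord (jdF (d * r) hdrN) := by
  have hr0 : r ≠ 0 := hr.ne_zero
  have hd0 : d ≠ 0 := ne_zero_of_dvd_N hdN
  have hrN : r ∣ N := (Dvd.intro_left d rfl).trans hdrN
  obtain ⟨ζ, hζ⟩ := exists_roots hNk r hr hrN
  have hΦ := hΦ_general hNk r hr hrN
  have hA : IsModEq (gΦ r) r k := hΦ.2.2.1
  have hrel : Tower.Rel (gΦ r) (jdF (d * r) hdrN) (jdF (k := k) d hdN) := by
    apply Rel.of_map_injective (algebraMap (Fk k N) (LaurentSeries k))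
      (algebraMap (Fk k N) (LaurentSeries k)).injective
    show Tower.Rel (gΦ r) (jS k 1 (d * r)) (jS k 1 d)
    exact rel_fwd_K hA hr0 hζ hd0
  exact ord_nonneg_of_rel v hΦ.1 hrel h

end IntegralFk

end Fermat.Agent.S34x.Cusp
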