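import Fermat.Agent.S34x.Cusp.EltY4
import Fermat.Agent.S34x.Inst.Charts
import Fermat.Agent.Gateway.AuxLevel.MembershipFk
import Fermat.Agent.Gateway.GoodRed.ConjFamily.FBarEq
import Fermat.Agent.Gateway.GoodRed.PlacesIntegral

/-!
# P-S34 (vi)(A), part 4: the element `y = (α x₄)^q / β x₄` at level `M q`, `4 ∣ M`, `q` odd

`L` algebraically closed of characteristic zero, `t' : F_M` with expansion `x₄`,
`t := α t'`, `u := β t'` in `F_{Mq}` (`Inst/Charts`: `tα`, `tβ`).  Then

* (Y1) `t^q / u` is integral over `L[t]`;      (Y2) `u / t^q` is integral over `L[t⁻¹]`;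
* (Y3) `u` is integral over `L[t]`,  `u⁻¹` is integral over `L[t⁻¹]`

(`isIntegral_eltY4`).  Also the place-level statement `ord_eq_x4` on `Fk L (M q)`.
-/

set_option autoImplicit false
set_option linter.unusedSectionVars false
set_option linter.style.haveILetI false

noncomputable section

namespace Fermat.Agent.S34x.Cusp

open Polynomial ModularCurve IntermediateField AlgebraicCurve
open Fermat.Agent.S28 Fermat.Agent.S28.Tower
open Fermat.Agent.Gateway Fermat.Agent.Gateway.GoodRed Fermat.Agent.Gateway.GoodRed.ConjFamily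
open Fermat.Agent.Gateway.AuxLevel Fermat.Agent.S34x.Inst.Charts

/-! ### Transport of integrality along an algebra hom -/

section Transport

variable {K E E' : Type*} [Field K] [CommRing E] [CommRing E'] [Algebra K E] [Algebra K E']

theorem isIntegral_adjoin_map (e : E →ₐ[K] E') {t y : E}
    (h : IsIntegral (Algebra.adjoin K {t}) y) : IsIntegral (Algebra.adjoin K {e t}) (e y) := by
  obtain ⟨p, hp, hpy⟩ := h
  have hmem : ∀ x : Algebra.adjoin K {t}, e (x : E) ∈ Algebra.adjoin K {e t} := by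
    intro x
    have h1 : e (x : E) ∈ (Algebra.adjoin K {t}).map e := ⟨x, x.2, rfl⟩
    rwa [AlgHom.map_adjoin, Set.image_singleton] at h1
  let h0 : Algebra.adjoin K {t} →+* Algebra.adjoin K {e t} :=
    { toFun := fun x => ⟨e (x : E), hmem x⟩
      map_one' := Subtype.ext (by simp)
      map_mul' := fun x y => Subtype.ext (by simp)
      map_zero' := Subtype.ext (by simp)
      map_add' := fun x y => Subtype.ext (by simp) }
  refine ⟨p.map h0, hp.map h0, ?_⟩
  rw [eval₂_map]
  have hcomp : (algebraMap (Algebra.adjoin K {e t}) E').comp h0 =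
      (e : E →+* E').comp (algebraMap (Algebra.adjoin K {t}) E) := by
    ext x
    rfl
  rw [hcomp]
  have h2 := Polynomial.hom_eval₂ p (algebraMap (Algebra.adjoin K {t}) E) (e : E →+* E') y
  rw [hpy, map_zero] at h2
  exact h2.symm

end Transport

/-! ### The elements on `Fk L (M q)` -/

section OnFk

variable {k : Type} [Field k] [IsAlgClosed k] [CharZero k] {N : ℕ} [NeZero N]

theorem coe_injective_Fk : Function.Injective (fun x : Fk k N => (x : LaurentSeries k)) :=
  Subtype.val_injective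

/-- **the cusp analysis of `x₄(z)`, `x₄(qz)` on `Fk k N`.** -/
theorem ord_eq_x4 (hNk : (N : k) ≠ 0) {q : ℕ} [NeZero q] (hq : q.Prime) (hq2 : q ≠ 2)
    (h4qN : 4 * q ∣ N) {t u : Fk k N} (ht : (t : LaurentSeries k) = L4.x4k k)
    (hu : (u : LaurentSeries k) = qExpand k q (L4.x4k k)) (v : Place k (Fk k N)) :
    v.ord u = q * v.ord t ∨ q * v.ord u = v.ord t := by
  have h4N : 4 ∣ N := (Dvd.intro _ rfl).trans h4qN
  have h2N : 2 ∣ N := (by norm_num : 2 ∣ 4).trans h4N
  have hqN : q ∣ N := (Dvd.intro_left _ rfl).trans h4qN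
  have h2qN : 2 * q ∣ N := (mul_dvd_mul_right (by norm_num : 2 ∣ 4) q).trans h4qN
  have hinj := (algebraMap (Fk k N) (LaurentSeries k)).injective
  have ht0 : t ≠ 0 := by
    intro h
    apply L4.x4k_ne_zero k
    rw [← ht, h]; rfl
  have ht16 : t - 16 ≠ 0 := by
    intro h
    apply L4.x4k_sub_ne_zero k
    have := congrArg (algebraMap (Fk k N) (LaurentSeries k)) h
    rw [map_sub, map_ofNat, map_zero, IntermediateField.algebraMap_apply, ht] at this
    exact this
  have hu0 : u ≠ 0 := by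
    intro h
    apply L4.x4k_ne_zero k
    apply qExpand_injective (R := k) (N := q)
    rw [← hu, h, map_zero]; rfl
  have hu16 : u - 16 ≠ 0 := by
    intro h
    apply L4.x4k_sub_ne_zero k
    apply qExpand_injective (R := k) (N := q)
    have := congrArg (algebraMap (Fk k N) (LaurentSeries k)) h
    rw [map_sub, map_ofNat, map_zero, IntermediateField.algebraMap_apply, hu] at this
    rw [map_sub, map_ofNat, map_zero]
    exact this
  have c1 : ((jdF (k := k) 1 (one_dvd N) : Fk k N) : LaurentSeries k) = jqModC k := by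
    rw [coe_jdF, jS_one_one]
  have c2 : ((jdF (k := k) 2 h2N : Fk k N) : LaurentSeries k) = qExpand k 2 (jqModC k) := by
    rw [coe_jdF, jS_eq_qExpand]
  have c4 : ((jdF (k := k) 4 h4N : Fk k N) : LaurentSeries k) = qExpand k 4 (jqModC k) := by
    rw [coe_jdF, jS_eq_qExpand]
  have cq : ((jdF (k := k) q hqN : Fk k N) : LaurentSeries k) = qExpand k q (jqModC k) := by
    rw [coe_jdF, jS_eq_qExpand]
  have c2q : ((jdF (k := k) (2 * q) h2qN : Fk k N) : LaurentSeries k) =
      qExpand k q (qExpand k 2 (jqModC k)) := by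
    rw [coe_jdF, qExpand_qExpand, ← jS_eq_qExpand, mul_comm]
  have c4q : ((jdF (k := k) (4 * q) h4qN : Fk k N) : LaurentSeries k) =
      qExpand k q (qExpand k 4 (jqModC k)) := by
    rw [coe_jdF, qExpand_qExpand, ← jS_eq_qExpand, mul_comm]
  have T1 : jdF 1 (one_dvd N) * (t * (t - 16) ^ 4) = (t ^ 2 + 224 * t + 256) ^ 3 := by
    apply hinj
    simp only [map_mul, map_pow, map_sub, map_add, map_ofNat, IntermediateField.algebraMap_apply]
    rw [c1, ht]
    exact L4.jq_x4k k
  have T2 : jdF 2 h2N * (t ^ 2 * (t - 16) ^ 2) = (t ^ 2 - 16 * t + 256) ^ 3 := by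
    apply hinj
    simp only [map_mul, map_pow, map_sub, map_add, map_ofNat, IntermediateField.algebraMap_apply]
    rw [c2, ht]
    exact L4.jq2_x4k k
  have T4 : jdF 4 h4N * (t * (t - 16)) = (t ^ 2 - 16 * t + 16) ^ 3 := by
    apply hinj
    simp only [map_mul, map_pow, map_sub, map_add, map_ofNat, IntermediateField.algebraMap_apply]
    rw [c4, ht]
    exact L4.jq4_x4k k
  have U1 : jdF q hqN * (u * (u - 16) ^ 4) = (u ^ 2 + 224 * u + 256) ^ 3 := by
    apply hinj
    simp only [map_mul, map_pow, map_sub, map_add, map_ofNat, IntermediateField.algebraMap_apply]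
    rw [cq, hu]
    have := congrArg (qExpand k q) (L4.jq_x4k k)
    simpa only [map_mul, map_pow, map_sub, map_add, map_ofNat] using this
  have U2 : jdF (2 * q) h2qN * (u ^ 2 * (u - 16) ^ 2) = (u ^ 2 - 16 * u + 256) ^ 3 := by
    apply hinj
    simp only [map_mul, map_pow, map_sub, map_add, map_ofNat, IntermediateField.algebraMap_apply]
    rw [c2q, hu]
    have := congrArg (qExpand k q) (L4.jq2_x4k k)
    simpa only [map_mul, map_pow, map_sub, map_add, map_ofNat] using this
  have U4 : jdF (4 * q) h4qN * (u * (u - 16)) = (u ^ 2 - 16 * u + 16) ^ 3 := by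
    apply hinj
    simp only [map_mul, map_pow, map_sub, map_add, map_ofNat, IntermediateField.algebraMap_apply]
    rw [c4q, hu]
    have := congrArg (qExpand k q) (L4.jq4_x4k k)
    simpa only [map_mul, map_pow, map_sub, map_add, map_ofNat] using this
  exact ord_eq_of_jRel hNk hq hq2 h2N h4N hqN h2qN h4qN ht0 ht16 hu0 hu16 T1 T2 T4 U1 U2 U4 v

end OnFk

/-- integer bookkeeping: `b = q a` or `q b = a` (with `q ≥ 2`) gives the sign and size relations. -/
theorem int_aux {q a b : ℤ} (hq : 2 ≤ q) (h : b = q * a ∨ q * b = a) :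
    (0 ≤ a → 0 ≤ b ∧ 0 ≤ q * a - b) ∧ (a ≤ 0 → b ≤ 0 ∧ 0 ≤ b - q * a) := by
  have hq0 : (0 : ℤ) < q := by linarith
  rcases h with rfl | rfl
  · refine ⟨fun ha => ⟨mul_nonneg hq0.le ha, by simp⟩, fun ha => ⟨?_, by simp⟩⟩
    exact mul_nonpos_of_nonneg_of_nonpos hq0.le ha
  · refine ⟨fun ha => ?_, fun ha => ?_⟩
    · have hb : 0 ≤ b := by
        by_contra hb
        have hb' : b < 0 := not_le.mp hb
        have := mul_neg_of_pos_of_neg hq0 hb'
        linarith
      refine ⟨hb, ?_⟩
      have e1 : q * (q * b) - b = (q * q - 1) * b := by ring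
      rw [e1]
      exact mul_nonneg (by nlinarith) hb
    · have hb : b ≤ 0 := by
        by_contra hb
        have hb' : 0 < b := not_le.mp hb
        have := mul_pos hq0 hb'
        linarith
      refine ⟨hb, ?_⟩
      have e1 : b - q * (q * b) = (q * q - 1) * (-b) := by ring
      rw [e1]
      exact mul_nonneg (by nlinarith) (by linarith)

/-! ### Integrality on `Fk k N` -/

section IntegralFk

variable {k : Type} [Field k] [IsAlgClosed k] [CharZero k] {N : ℕ} [NeZero N]

theorem ofNat_mem_adjoin_simple (t : Fk k N) (n : ℕ) [n.AtLeastTwo] :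
    (OfNat.ofNat n : Fk k N) ∈ k⟮t⟯ := by
  rw [← map_ofNat (algebraMap k (Fk k N)) n]
  exact IntermediateField.algebraMap_mem _ _

/-- `j ∈ k(x₄)`. -/
theorem jFk_mem_adjoin_x4 (h4N : 4 ∣ N) {t : Fk k N} (ht : (t : LaurentSeries k) = L4.x4k k) :
    jFk k N ∈ k⟮t⟯ := by
  have hinj := (algebraMap (Fk k N) (LaurentSeries k)).injective
  have ht0 : t ≠ 0 := by
    intro h
    apply L4.x4k_ne_zero k
    rw [← ht, h]; rfl
  have ht16 : t - 16 ≠ 0 := by
    intro h
    apply L4.x4k_sub_ne_zero k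
    have := congrArg (algebraMap (Fk k N) (LaurentSeries k)) h
    rw [map_sub, map_ofNat, map_zero, IntermediateField.algebraMap_apply, ht] at this
    exact this
  have T1 : jFk k N * (t * (t - 16) ^ 4) = (t ^ 2 + 224 * t + 256) ^ 3 := by
    apply hinj
    simp only [map_mul, map_pow, map_sub, map_add, map_ofNat, IntermediateField.algebraMap_apply]
    rw [ht]
    exact L4.jq_x4k k
  have hA : t * (t - 16) ^ 4 ≠ 0 := mul_ne_zero ht0 (pow_ne_zero 4 ht16)
  rw [eq_div_of_mul_eq hA T1]
  have htm : t ∈ k⟮t⟯ := mem_adjoin_simple_self k t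
  exact div_mem (pow_mem (add_mem (add_mem (pow_mem htm 2)
    (mul_mem (ofNat_mem_adjoin_simple t 224) htm)) (ofNat_mem_adjoin_simple t 256)) 3)
    (mul_mem htm (pow_mem (sub_mem htm (ofNat_mem_adjoin_simple t 16)) 4))

/-- **(Y1)-(Y3) on `Fk k N`.** -/
theorem isIntegral_x4_Fk (hNk : (N : k) ≠ 0) {q : ℕ} [NeZero q] (hq : q.Prime) (hq2 : q ≠ 2)
    (h4qN : 4 * q ∣ N) {t u : Fk k N} (ht : (t : LaurentSeries k) = L4.x4k k)
    (hu : (u : LaurentSeries k) = qExpand k q (L4.x4k k)) :
    IsIntegral (Algebra.adjoin k {t}) (t ^ q / u) ∧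
      IsIntegral (Algebra.adjoin k {t⁻¹}) (u / t ^ q) ∧
      IsIntegral (Algebra.adjoin k {t}) u ∧ IsIntegral (Algebra.adjoin k {t⁻¹}) u⁻¹ := by
  have h4N : 4 ∣ N := (Dvd.intro _ rfl).trans h4qN
  have hord := fun v => ord_eq_x4 hNk hq hq2 h4qN ht hu v
  have hqpos : (2 : ℤ) ≤ q := by exact_mod_cast hq.two_le
  have ht0 : t ≠ 0 := by
    intro h
    apply L4.x4k_ne_zero k
    rw [← ht, h]; rfl
  have hu0 : u ≠ 0 := by
    intro h
    apply L4.x4k_ne_zero k
    apply qExpand_injective (R := k) (N := q)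
    rw [← hu, h, map_zero]; rfl
  -- the function field package over `k(t)`
  have hjmem := jFk_mem_adjoin_x4 h4N ht
  have htr : Transcendental k t := transcendental_of_mem_adjoin hjmem transcendental_jFk
  haveI := finiteDimensional_Fk (k := k) (N := N) hNk
  haveI : FiniteDimensional k⟮t⟯ (Fk k N) := finiteDimensional_of_mem_adjoin hjmem
  haveI : Algebra.IsSeparable k⟮t⟯ (Fk k N) := isSeparable_adjoin_of_charZero t
  have htr' : Transcendental k t⁻¹ := Fermat.Agent.S24.PD.transcendental_inv htr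
  haveI : FiniteDimensional k⟮t⁻¹⟯ (Fk k N) := by
    rw [C0.adjoin_simple_inv_eq]; infer_instance
  haveI : Algebra.IsSeparable k⟮t⁻¹⟯ (Fk k N) := by
    rw [C0.adjoin_simple_inv_eq]; infer_instance
  have hpow : t ^ q ≠ 0 := pow_ne_zero q ht0
  refine ⟨?_, ?_, ?_, ?_⟩
  · rw [PlacesIntegral.isIntegral_iff_forall_ord_nonneg t htr]
    intro P hP
    rw [Fermat.Agent.S24.ZP.ord_div P hpow hu0, Fermat.Agent.S24.ZP.ord_pow]
    exact ((int_aux hqpos (hord P)).1 hP).2
  · rw [PlacesIntegral.isIntegral_iff_forall_ord_nonneg t⁻¹ htr']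
    intro P hP
    rw [P.ord_inv] at hP
    rw [Fermat.Agent.S24.ZP.ord_div P hu0 hpow, Fermat.Agent.S24.ZP.ord_pow]
    exact ((int_aux hqpos (hord P)).2 (by linarith)).2
  · rw [PlacesIntegral.isIntegral_iff_forall_ord_nonneg t htr]
    intro P hP
    exact ((int_aux hqpos (hord P)).1 hP).1
  · rw [PlacesIntegral.isIntegral_iff_forall_ord_nonneg t⁻¹ htr']
    intro P hP
    rw [P.ord_inv] at hP
    rw [P.ord_inv]
    have := ((int_aux hqpos (hord P)).2 (by linarith)).1
    linarith

end IntegralFk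

/-! ### The statement at level `M q` in the `heckeAlphaBar / heckeBetaBar` language -/

section OnFL

variable (L : Type) [Field L] [Algebra ℚ L] [IsAlgClosed L] (M q : ℕ) [NeZero M] [NeZero q]

/-- **(Y1), (Y2), (Y3)** for `r₀ = 4`: `t = α t'`, `u = β t'`, `t'` with expansion `x₄`. -/
theorem isIntegral_eltY4 (hq : q.Prime) (hq2 : q ≠ 2) (h4M : 4 ∣ M) (t' : HK1.FL L M)
    (ht' : (t' : LaurentSeries L) = L4.x4k L) :
    IsIntegral (Algebra.adjoin L {tα L M q t'}) (tα L M q t' ^ q / tβ L M q t') ∧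
      IsIntegral (Algebra.adjoin L {(tα L M q t')⁻¹}) (tβ L M q t' / tα L M q t' ^ q) ∧
      IsIntegral (Algebra.adjoin L {tα L M q t'}) (tβ L M q t') ∧
      IsIntegral (Algebra.adjoin L {(tα L M q t')⁻¹}) (tβ L M q t')⁻¹ := by
  haveI : CharZero L := algebraRat.charZero L
  have hNk : ((M * q : ℕ) : L) ≠ 0 := Nat.cast_ne_zero.mpr (NeZero.ne _)
  have h4qN : 4 * q ∣ M * q := mul_dvd_mul_right h4M q
  let e : FBar L (M * q) ≃ₐ[L] modularFunctionFieldFullC L (M * q) := fbarEquivFullC L (M * q)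
  set tF : Fk L (M * q) := e (tα L M q t') with htFdef
  set uF : Fk L (M * q) := e (tβ L M q t') with huFdef
  have htF : (tF : LaurentSeries L) = L4.x4k L := by
    rw [htFdef, coe_fbarEquivFullC, coe_heckeAlphaBar, ht']
  have huF : (uF : LaurentSeries L) = qExpand L q (L4.x4k L) := by
    rw [huFdef, coe_fbarEquivFullC, coe_heckeBetaBar, ht']
  obtain ⟨h1, h2, h3, h4⟩ := isIntegral_x4_Fk hNk hq hq2 h4qN htF huF
  have et : (e.symm : Fk L (M * q) →ₐ[L] FBar L (M * q)) tF = tα L M q t' :=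
    e.symm_apply_apply _
  have eu : (e.symm : Fk L (M * q) →ₐ[L] FBar L (M * q)) uF = tβ L M q t' :=
    e.symm_apply_apply _
  have g1 := isIntegral_adjoin_map (e.symm : Fk L (M * q) →ₐ[L] FBar L (M * q)) h1
  have g2 := isIntegral_adjoin_map (e.symm : Fk L (M * q) →ₐ[L] FBar L (M * q)) h2
  have g3 := isIntegral_adjoin_map (e.symm : Fk L (M * q) →ₐ[L] FBar L (M * q)) h3
  have g4 := isIntegral_adjoin_map (e.symm : Fk L (M * q) →ₐ[L] FBar L (M * q)) h4
  rw [map_div₀, map_pow, et, eu] at g1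
  rw [map_inv₀, map_div₀, map_pow, et, eu] at g2
  rw [et, eu] at g3
  rw [map_inv₀, map_inv₀, et, eu] at g4
  exact ⟨g1, g2, g3, g4⟩

end OnFL

end Fermat.Agent.S34x.Cusp
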