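import Fermat.Agent.S34x.Cusp.EltY9
import Fermat.Agent.S34x.Cusp.Y4Inst
import Fermat.Agent.Gateway.AuxLevel.Shifted9

/-!
# P-S34 (vi)(A), part 4': the element `y = (α z₉)² / β z₉` at level `2 M`, `9 ∣ M`

`L` algebraically closed of characteristic zero, `t' : F_M` with expansion `z₉ = y₉ - 3`,
`t := α t'`, `u := β t'` in `F_{M·2}` (`Inst/Charts`: `tα`, `tβ` with `q = 2`).  Then

* (Y1) `t² / u` is integral over `L[t]`;      (Y2) `u / t²` is integral over `L[t⁻¹]`;
* (Y3) `u` is integral over `L[t]`,  `u⁻¹` is integral over `L[t⁻¹]`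

(`isIntegral_eltY9`).  Also the place-level statement `ord_eq_z9` on `Fk L (M·2)`.
-/

set_option autoImplicit false
set_option linter.unusedSectionVars false
set_option linter.style.haveILetI false

noncomputable section

namespace Fermat.Agent.S34x.Cusp

open Polynomial ModularCurve IntermediateField AlgebraicCurve
open Fermat.Agent.S28 Fermat.Agent.S28.Tower
open Fermat.Agent.Gateway Fermat.Agent.Gateway.GoodRed Fermat.Agent.Gateway.GoodRed.ConjFamily
open Fermat.Agent.Gateway.AuxLevel Fermat.Agent.S34x.Inst.Charts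

/-! ### The elements on `Fk L N`, `18 ∣ N` -/

section OnFk9

variable {k : Type} [Field k] [IsAlgClosed k] [CharZero k] {N : ℕ} [NeZero N]

/-- **the cusp analysis of `z₉(τ)`, `z₉(2τ)` on `Fk k N`.** -/
theorem ord_eq_z9 (hNk : (N : k) ≠ 0) (h18N : 18 ∣ N) {t u : Fk k N}
    (ht : (t : LaurentSeries k) = L9.z9k k)
    (hu : (u : LaurentSeries k) = qExpand k 2 (L9.z9k k)) (v : Place k (Fk k N)) :
    v.ord u = 2 * v.ord t ∨ 2 * v.ord u = v.ord t := by
  have h2N : 2 ∣ N := (by norm_num : 2 ∣ 18).trans h18N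
  have h3N : 3 ∣ N := (by norm_num : 3 ∣ 18).trans h18N
  have h6N : 6 ∣ N := (by norm_num : 6 ∣ 18).trans h18N
  have h9N : 9 ∣ N := (by norm_num : 9 ∣ 18).trans h18N
  have hinj := (algebraMap (Fk k N) (LaurentSeries k)).injective
  have ht0 : t ≠ 0 := by
    intro h
    apply L9.z9k_ne_zero k
    rw [← ht, h]; rfl
  have hts : t ^ 2 + 9 * t + 27 ≠ 0 := by
    intro h
    apply L9.z9k_quad_ne_zero k
    have := congrArg (algebraMap (Fk k N) (LaurentSeries k)) h
    rw [map_add, map_add, map_mul, map_pow, map_ofNat, map_ofNat, map_zero,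
      IntermediateField.algebraMap_apply, ht] at this
    exact this
  have hu0 : u ≠ 0 := by
    intro h
    apply L9.z9k_ne_zero k
    apply qExpand_injective (R := k) (N := 2)
    rw [← hu, h, map_zero]; rfl
  have hus : u ^ 2 + 9 * u + 27 ≠ 0 := by
    intro h
    apply L9.z9k_quad_ne_zero k
    apply qExpand_injective (R := k) (N := 2)
    have := congrArg (algebraMap (Fk k N) (LaurentSeries k)) h
    rw [map_add, map_add, map_mul, map_pow, map_ofNat, map_ofNat, map_zero,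
      IntermediateField.algebraMap_apply, hu] at this
    rw [map_add, map_add, map_mul, map_pow, map_ofNat, map_ofNat, map_zero]
    exact this
  have c1 : ((jdF (k := k) 1 (one_dvd N) : Fk k N) : LaurentSeries k) = jqModC k := by
    rw [coe_jdF, jS_one_one]
  have c3 : ((jdF (k := k) 3 h3N : Fk k N) : LaurentSeries k) = qExpand k 3 (jqModC k) := by
    rw [coe_jdF, jS_eq_qExpand]
  have c9 : ((jdF (k := k) 9 h9N : Fk k N) : LaurentSeries k) = qExpand k 9 (jqModC k) := by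
    rw [coe_jdF, jS_eq_qExpand]
  have c2 : ((jdF (k := k) 2 h2N : Fk k N) : LaurentSeries k) =
      qExpand k 2 (jqModC k) := by
    rw [coe_jdF, jS_eq_qExpand]
  have c6 : ((jdF (k := k) 6 h6N : Fk k N) : LaurentSeries k) =
      qExpand k 2 (qExpand k 3 (jqModC k)) := by
    rw [coe_jdF, qExpand_qExpand, jS_eq_qExpand]
  have c18 : ((jdF (k := k) 18 h18N : Fk k N) : LaurentSeries k) =
      qExpand k 2 (qExpand k 9 (jqModC k)) := by
    rw [coe_jdF, qExpand_qExpand, jS_eq_qExpand]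
  have T1 : jdF 1 (one_dvd N) * (t ^ 9 * (t ^ 2 + 9 * t + 27)) =
      (t + 9) ^ 3 * (t ^ 3 + 243 * t ^ 2 + 2187 * t + 6561) ^ 3 := by
    apply hinj
    simp only [map_mul, map_pow, map_add, map_ofNat, IntermediateField.algebraMap_apply]
    rw [c1, ht]
    exact L9.jq_z9k k
  have T3 : jdF 3 h3N * (t ^ 3 * (t ^ 2 + 9 * t + 27) ^ 3) =
      (t + 3) ^ 3 * (t ^ 3 + 9 * t ^ 2 + 27 * t + 243) ^ 3 := by
    apply hinj
    simp only [map_mul, map_pow, map_add, map_ofNat, IntermediateField.algebraMap_apply]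
    rw [c3, ht]
    exact L9.jq3_z9k k
  have T9 : jdF 9 h9N * (t * (t ^ 2 + 9 * t + 27)) =
      (t + 3) ^ 3 * (t ^ 3 + 9 * t ^ 2 + 27 * t + 3) ^ 3 := by
    apply hinj
    simp only [map_mul, map_pow, map_add, map_ofNat, IntermediateField.algebraMap_apply]
    rw [c9, ht]
    exact L9.jq9_z9k k
  have U1 : jdF 2 h2N * (u ^ 9 * (u ^ 2 + 9 * u + 27)) =
      (u + 9) ^ 3 * (u ^ 3 + 243 * u ^ 2 + 2187 * u + 6561) ^ 3 := by
    apply hinj
    simp only [map_mul, map_pow, map_add, map_ofNat, IntermediateField.algebraMap_apply]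
    rw [c2, hu]
    have := congrArg (qExpand k 2) (L9.jq_z9k k)
    simpa only [map_mul, map_pow, map_add, map_ofNat] using this
  have U3 : jdF 6 h6N * (u ^ 3 * (u ^ 2 + 9 * u + 27) ^ 3) =
      (u + 3) ^ 3 * (u ^ 3 + 9 * u ^ 2 + 27 * u + 243) ^ 3 := by
    apply hinj
    simp only [map_mul, map_pow, map_add, map_ofNat, IntermediateField.algebraMap_apply]
    rw [c6, hu]
    have := congrArg (qExpand k 2) (L9.jq3_z9k k)
    simpa only [map_mul, map_pow, map_add, map_ofNat] using this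
  have U9 : jdF 18 h18N * (u * (u ^ 2 + 9 * u + 27)) =
      (u + 3) ^ 3 * (u ^ 3 + 9 * u ^ 2 + 27 * u + 3) ^ 3 := by
    apply hinj
    simp only [map_mul, map_pow, map_add, map_ofNat, IntermediateField.algebraMap_apply]
    rw [c18, hu]
    have := congrArg (qExpand k 2) (L9.jq9_z9k k)
    simpa only [map_mul, map_pow, map_add, map_ofNat] using this
  exact ord_eq_of_jRel9 hNk h2N h3N h6N h9N h18N ht0 hts hu0 hus T1 T3 T9 U1 U3 U9 v

end OnFk9

/-! ### Integrality on `Fk k N` -/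

section IntegralFk9

variable {k : Type} [Field k] [IsAlgClosed k] [CharZero k] {N : ℕ} [NeZero N]

/-- `j ∈ k(z₉)`. -/
theorem jFk_mem_adjoin_z9 {t : Fk k N} (ht : (t : LaurentSeries k) = L9.z9k k) :
    jFk k N ∈ k⟮t⟯ := by
  have hinj := (algebraMap (Fk k N) (LaurentSeries k)).injective
  have ht0 : t ≠ 0 := by
    intro h
    apply L9.z9k_ne_zero k
    rw [← ht, h]; rfl
  have hts : t ^ 2 + 9 * t + 27 ≠ 0 := by
    intro h
    apply L9.z9k_quad_ne_zero k
    have := congrArg (algebraMap (Fk k N) (LaurentSeries k)) h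
    rw [map_add, map_add, map_mul, map_pow, map_ofNat, map_ofNat, map_zero,
      IntermediateField.algebraMap_apply, ht] at this
    exact this
  have T1 : jFk k N * (t ^ 9 * (t ^ 2 + 9 * t + 27)) =
      (t + 9) ^ 3 * (t ^ 3 + 243 * t ^ 2 + 2187 * t + 6561) ^ 3 := by
    apply hinj
    simp only [map_mul, map_pow, map_add, map_ofNat, IntermediateField.algebraMap_apply]
    rw [ht]
    exact L9.jq_z9k k
  have hA : t ^ 9 * (t ^ 2 + 9 * t + 27) ≠ 0 := mul_ne_zero (pow_ne_zero 9 ht0) hts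
  rw [eq_div_of_mul_eq hA T1]
  have htm : t ∈ k⟮t⟯ := mem_adjoin_simple_self k t
  have n := fun (n : ℕ) [n.AtLeastTwo] => ofNat_mem_adjoin_simple t n
  exact div_mem (mul_mem (pow_mem (add_mem htm (n 9)) 3)
    (pow_mem (add_mem (add_mem (add_mem (pow_mem htm 3) (mul_mem (n 243) (pow_mem htm 2)))
      (mul_mem (n 2187) htm)) (n 6561)) 3))
    (mul_mem (pow_mem htm 9) (add_mem (add_mem (pow_mem htm 2) (mul_mem (n 9) htm)) (n 27)))

/-- **(Y1)-(Y3) on `Fk k N`**, level 9, `q = 2`. -/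
theorem isIntegral_z9_Fk (hNk : (N : k) ≠ 0) (h18N : 18 ∣ N) {t u : Fk k N}
    (ht : (t : LaurentSeries k) = L9.z9k k)
    (hu : (u : LaurentSeries k) = qExpand k 2 (L9.z9k k)) :
    IsIntegral (Algebra.adjoin k {t}) (t ^ 2 / u) ∧
      IsIntegral (Algebra.adjoin k {t⁻¹}) (u / t ^ 2) ∧
      IsIntegral (Algebra.adjoin k {t}) u ∧ IsIntegral (Algebra.adjoin k {t⁻¹}) u⁻¹ := by
  have hord := fun v => ord_eq_z9 hNk h18N ht hu v
  have hqpos : (2 : ℤ) ≤ 2 := le_refl _
  have ht0 : t ≠ 0 := by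
    intro h
    apply L9.z9k_ne_zero k
    rw [← ht, h]; rfl
  have hu0 : u ≠ 0 := by
    intro h
    apply L9.z9k_ne_zero k
    apply qExpand_injective (R := k) (N := 2)
    rw [← hu, h, map_zero]; rfl
  -- the function field package over `k(t)`
  have hjmem := jFk_mem_adjoin_z9 (N := N) ht
  have htr : Transcendental k t := transcendental_of_mem_adjoin hjmem transcendental_jFk
  haveI := finiteDimensional_Fk (k := k) (N := N) hNk
  haveI : FiniteDimensional k⟮t⟯ (Fk k N) := finiteDimensional_of_mem_adjoin hjmem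
  haveI : Algebra.IsSeparable k⟮t⟯ (Fk k N) := isSeparable_adjoin_of_charZero t
  have htr' : Transcendental k t⁻¹ := Fermat.Agent.S24.PD.transcendental_inv htr
  haveI : FiniteDimensional k⟮t⁻¹⟯ (Fk k N) := by
    rw [C0.adjoin_simple_inv_eq]; infer_instance
  haveI : Algebra.IsSeparable k⟮t⁻¹⟯ (Fk k N) := by
    rw [C0.adjoin_simple_inv_eq]; infer_instance
  have hpow : t ^ 2 ≠ 0 := pow_ne_zero 2 ht0
  refine ⟨?_, ?_, ?_, ?_⟩
  · rw [PlacesIntegral.isIntegral_iff_forall_ord_nonneg t htr]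
    intro P hP
    rw [Fermat.Agent.S24.ZP.ord_div P hpow hu0, Fermat.Agent.S24.ZP.ord_pow]
    exact ((int_aux hqpos (hord P)).1 hP).2
  · rw [PlacesIntegral.isIntegral_iff_forall_ord_nonneg t⁻¹ htr']
    intro P hP
    rw [P.ord_inv] at hP
    rw [Fermat.Agent.S24.ZP.ord_div P hu0 hpow, Fermat.Agent.S24.ZP.ord_pow]
    exact ((int_aux hqpos (hord P)).2 (by linarith)).2
  · rw [PlacesIntegral.isIntegral_iff_forall_ord_nonneg t htr]
    intro P hP
    exact ((int_aux hqpos (hord P)).1 hP).1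
  · rw [PlacesIntegral.isIntegral_iff_forall_ord_nonneg t⁻¹ htr']
    intro P hP
    rw [P.ord_inv] at hP
    rw [P.ord_inv]
    have := ((int_aux hqpos (hord P)).2 (by linarith)).1
    linarith

end IntegralFk9

/-! ### The statement at level `M·2` in the `heckeAlphaBar / heckeBetaBar` language -/

section OnFL9

variable (L : Type) [Field L] [Algebra ℚ L] [IsAlgClosed L] (M : ℕ) [NeZero M]

/-- **(Y1), (Y2), (Y3)** for `r₀ = 9`, `q = 2`: `t = α t'`, `u = β t'`, `t'` with expansion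
`z₉ = y₉ - 3`. -/
theorem isIntegral_eltY9 (h9M : 9 ∣ M) (t' : HK1.FL L M)
    (ht' : (t' : LaurentSeries L) = L9.z9k L) :
    IsIntegral (Algebra.adjoin L {tα L M 2 t'}) (tα L M 2 t' ^ 2 / tβ L M 2 t') ∧
      IsIntegral (Algebra.adjoin L {(tα L M 2 t')⁻¹}) (tβ L M 2 t' / tα L M 2 t' ^ 2) ∧
      IsIntegral (Algebra.adjoin L {tα L M 2 t'}) (tβ L M 2 t') ∧
      IsIntegral (Algebra.adjoin L {(tα L M 2 t')⁻¹}) (tβ L M 2 t')⁻¹ := by
  haveI : CharZero L := algebraRat.charZero L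
  have hNk : ((M * 2 : ℕ) : L) ≠ 0 := Nat.cast_ne_zero.mpr (NeZero.ne _)
  have h18N : 18 ∣ M * 2 := by
    obtain ⟨c, rfl⟩ := h9M
    exact ⟨c, by ring⟩
  let e : FBar L (M * 2) ≃ₐ[L] modularFunctionFieldFullC L (M * 2) := fbarEquivFullC L (M * 2)
  set tF : Fk L (M * 2) := e (tα L M 2 t') with htFdef
  set uF : Fk L (M * 2) := e (tβ L M 2 t') with huFdef
  have htF : (tF : LaurentSeries L) = L9.z9k L := by
    rw [htFdef, coe_fbarEquivFullC, coe_heckeAlphaBar, ht']
  have huF : (uF : LaurentSeries L) = qExpand L 2 (L9.z9k L) := by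
    rw [huFdef, coe_fbarEquivFullC, coe_heckeBetaBar, ht']
  obtain ⟨h1, h2, h3, h4⟩ := isIntegral_z9_Fk hNk h18N htF huF
  have et : (e.symm : Fk L (M * 2) →ₐ[L] FBar L (M * 2)) tF = tα L M 2 t' :=
    e.symm_apply_apply _
  have eu : (e.symm : Fk L (M * 2) →ₐ[L] FBar L (M * 2)) uF = tβ L M 2 t' :=
    e.symm_apply_apply _
  have g1 := isIntegral_adjoin_map (e.symm : Fk L (M * 2) →ₐ[L] FBar L (M * 2)) h1
  have g2 := isIntegral_adjoin_map (e.symm : Fk L (M * 2) →ₐ[L] FBar L (M * 2)) h2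
  have g3 := isIntegral_adjoin_map (e.symm : Fk L (M * 2) →ₐ[L] FBar L (M * 2)) h3
  have g4 := isIntegral_adjoin_map (e.symm : Fk L (M * 2) →ₐ[L] FBar L (M * 2)) h4
  rw [map_div₀, map_pow, et, eu] at g1
  rw [map_inv₀, map_div₀, map_pow, et, eu] at g2
  rw [et, eu] at g3
  rw [map_inv₀, map_inv₀, et, eu] at g4
  exact ⟨g1, g2, g3, g4⟩

end OnFL9

end Fermat.Agent.S34x.Cusp
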